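import Fermat.Agent.LT.Geo.ArchPush
import Fermat.Agent.LTG.Geo.Match
import Fermat.Agent.LT.Geo.PPI

/-!
# The archimedean half of the push-forward formula
-/

set_option autoImplicit false
set_option linter.unusedSectionVars false

open MeasureTheory Matrix Complex
open scoped ENNReal

namespace Fermat.LT.GeoDat2
export Fermat.LT.GeoDatum (ppi_a)
end Fermat.LT.GeoDat2

namespace Fermat.LT

open Fermat.LT.GeoDat2 (acomp)

section triple

variable {a₀ a₁ a₂ : H3 → H3 → ℂ} (g₀ g₁ g₂ : GL (Fin 2) ℂ)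

end triple

end Fermat.LT

namespace Fermat.LT.GeoDat2

open NumberField IsDedekindDomain
open Fermat.Agent.LT.D

variable {K L : Type} [Field K] [NumberField K] [Field L] [NumberField L] [Algebra K L]
  {C : Cub K L} (G : GeoDat2 C)

theorem perm_ne (i : G.DL.I) : G.DL.perm i ≠ i := by
  intro h
  obtain ⟨x, hx⟩ := C.ne
  apply hx
  have h1 := G.DL.emb_perm i x
  rw [h] at h1
  exact ((G.DL.emb i).injective h1).symm

theorem perm_perm_ne (i : G.DL.I) : G.DL.perm (G.DL.perm i) ≠ i := by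
  intro h
  have h1 := G.DL.perm_cube i
  rw [h] at h1
  exact G.perm_ne i h1

theorem cover' (i₀ i : G.DL.I) :
    i = i₀ ∨ i = G.DL.perm i₀ ∨ i = G.DL.perm (G.DL.perm i₀) := by
  have h1 := G.cover i
  have h2 := G.cover i₀
  have h3 := G.DL.perm_cube G.ι
  rcases h2 with h2 | h2 | h2 <;> subst h2
  · exact h1
  · rw [h3]; tauto
  · rw [h3]; tauto

/-- enumeration of the complex places, starting at `i₀` -/
noncomputable def enum (i₀ : G.DL.I) : Fin 3 ≃ G.DL.I :=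
  Equiv.ofBijective ![i₀, G.DL.perm i₀, G.DL.perm (G.DL.perm i₀)] (by
    constructor
    · intro a b h
      have e1 := G.perm_ne i₀
      have e2 := G.perm_perm_ne i₀
      have e3 := G.perm_ne (G.DL.perm i₀)
      fin_cases a <;> fin_cases b <;> simp at h ⊢
      · exact e1 h.symm
      · exact e2 h.symm
      · exact e1 h
      · exact e1 h.symm
      · exact e2 h
      · exact e1 h
    · intro i
      rcases G.cover' i₀ i with h | h | h
      · exact ⟨0, h.symm⟩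
      · exact ⟨1, h.symm⟩
      · exact ⟨2, h.symm⟩)

/-- the three coordinates of a point, starting at `i₀` -/
def coords (i₀ : G.DL.I) (x : XI G.DL.toArch) : H3 × (H3 × H3) :=
  (x i₀, (x (G.DL.perm i₀), x (G.DL.perm (G.DL.perm i₀))))

theorem measurePreserving_coords (i₀ : G.DL.I) :
    MeasurePreserving (G.coords i₀) (volume : Measure (XI G.DL.toArch)) volume := by
  have h1 : MeasurePreserving (MeasurableEquiv.piCongrLeft (fun _ : G.DL.I => H3) (G.enum i₀))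
      volume volume := volume_measurePreserving_piCongrLeft (fun _ : G.DL.I => H3) (G.enum i₀)
  have h2 : MeasurePreserving (MeasurableEquiv.piFinSuccAbove (fun _ : Fin 3 => H3) 0)
      volume volume := volume_preserving_piFinSuccAbove (fun _ : Fin 3 => H3) 0
  have h3 : MeasurePreserving (MeasurableEquiv.finTwoArrow (α := H3)) volume volume :=
    volume_preserving_finTwoArrow H3
  have h4 : MeasurePreserving (Prod.map id (MeasurableEquiv.finTwoArrow (α := H3)))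
      (volume : Measure (H3 × (Fin 2 → H3))) volume :=
    (MeasurePreserving.id (volume : Measure H3)).prod h3
  have h5 := (h4.comp h2).comp h1.symm
  exact h5

variable {G} (k : Pure G.DL.toDatum)

theorem ppi_ba : PPI (ba k) := ((ppi_a k _).acomp (ppi_a k _)).acomp (ppi_a k _)

theorem ba_cyc (i : G.DL.I) :
    acomp (acomp (k.a (G.DL.perm i)) (k.a (G.DL.perm (G.DL.perm i)))) (k.a i) =
      acomp (acomp (k.a i) (k.a (G.DL.perm i))) (k.a (G.DL.perm (G.DL.perm i))) := by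
  rw [acomp_comm ((ppi_a k _).acomp (ppi_a k _)) (ppi_a k _),
    acomp_assoc (ppi_a k _) (ppi_a k _) (ppi_a k _)]

theorem ba_eq (j : ℕ) : acomp (acomp (k.a (G.DL.perm^[j] G.ι)) (k.a (G.DL.perm (G.DL.perm^[j] G.ι))))
    (k.a (G.DL.perm (G.DL.perm (G.DL.perm^[j] G.ι)))) = ba k := by
  induction j with
  | zero => rfl
  | succ j ih =>
    rw [Function.iterate_succ_apply', G.DL.perm_cube, ba_cyc, ih]

/-- the image of `δ` under the embedding `i` -/
noncomputable abbrev em (i : G.DL.I) (g : G2 L) : GL (Fin 2) ℂ :=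
  Matrix.GeneralLinearGroup.map (n := Fin 2) (G.DL.emb i) g

theorem em_perm (i : G.DL.I) (g : G2 L) : em (G.DL.perm i) g = em i (C.S g) := by
  ext a b
  exact G.DL.emb_perm i (g a b)

theorem em_N (i : G.DL.I) (δ : G2 L) :
    em i δ * em (G.DL.perm i) δ * em (G.DL.perm (G.DL.perm i)) δ = em i (C.N δ) := by
  rw [em_perm (G.DL.perm i), em_perm, em_perm, Cub.N, em, em, em, em, map_mul, map_mul]

theorem em_sc_smul (i : G.DL.I) (c : Lˣ) (P : H3) : em i (sc c) • P = P :=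
  congrFun (sc_smul_XI G.DL.toArch c (fun _ => P)) i

theorem emb_iter (j : ℕ) (x : K) :
    G.DL.emb (G.DL.perm^[j] G.ι) (algebraMap K L x) = G.AK.emb G.uK.default x := by
  induction j with
  | zero => exact G.emb_ι x
  | succ j ih => rw [Function.iterate_succ_apply', G.DL.emb_perm, AlgEquiv.commutes, ih]

theorem em_Inc (j : ℕ) (g : G2 K) : em (G.DL.perm^[j] G.ι) (Cub.Inc g) =
    Matrix.GeneralLinearGroup.map (n := Fin 2) (G.AK.emb G.uK.default) g := by
  ext a b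
  exact emb_iter j (g a b)

theorem em_N_smul {γ : G2 K} {δ : G2 L} (hc : Corr C γ δ) (j : ℕ) (P : H3) :
    em (G.DL.perm^[j] G.ι) (C.N δ) • P =
      Matrix.GeneralLinearGroup.map (n := Fin 2) (G.AK.emb G.uK.default) γ • P := by
  obtain ⟨c, hc⟩ := hc.2.2
  rw [hc]
  have : em (G.DL.perm^[j] G.ι) (Cub.sc c * Cub.Inc γ) =
    em (G.DL.perm^[j] G.ι) (sc c) * em (G.DL.perm^[j] G.ι) (Cub.Inc γ) := map_mul _ _ _
  rw [this, mul_smul, em_sc_smul, em_Inc]

theorem kerI_eq (i₀ : G.DL.I) (δ : G2 L) (x : XI G.DL.toArch) :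
    k.kerI x (δ • G.DL.σI x) = tri (k.a i₀) (k.a (G.DL.perm i₀)) (k.a (G.DL.perm (G.DL.perm i₀)))
      (em i₀ δ) (em (G.DL.perm i₀) δ) (em (G.DL.perm (G.DL.perm i₀)) δ) (G.coords i₀ x) := by
  unfold Pure.kerI
  rw [← Equiv.prod_comp (G.enum i₀), Fin.prod_univ_three, mul_assoc]
  have e0 : G.enum i₀ 0 = i₀ := rfl
  have e1 : G.enum i₀ 1 = G.DL.perm i₀ := rfl
  have e2 : G.enum i₀ 2 = G.DL.perm (G.DL.perm i₀) := rfl
  rw [e0, e1, e2]
  simp only [XI_smul_apply, TwDatum.σI_apply, TwDatum.perm_cube]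
  rfl

/-- the projection of the archimedean part on the `j`-th complex place above `ι` -/
def prI (G : GeoDat2 C) (j : ℕ) (x : XI G.DL.toArch) : XI G.AK := fun _ => x (G.DL.perm^[j] G.ι)

theorem prI_smul (j : ℕ) (t : G2 K) (x : XI G.DL.toArch) :
    prI G j ((Cub.Inc t : G2 L) • x) = t • prI G j x := by
  funext i
  obtain rfl : i = G.uK.default := G.uK.uniq i
  change em (G.DL.perm^[j] G.ι) (Cub.Inc t) • x (G.DL.perm^[j] G.ι) = _
  rw [em_Inc]
  rfl

theorem measurable_prI (j : ℕ) : Measurable (prI G j) :=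
  measurable_pi_iff.mpr fun _ => measurable_pi_apply _

theorem measurePreserving_default :
    MeasurePreserving (fun z : XI G.AK => z G.uK.default) volume volume := by
  have h := @volume_preserving_funUnique G.AK.I H3 G.uK _
  have e : @Unique.fintype G.AK.I G.uK = G.AK.fI := Subsingleton.elim _ _
  rw [e] at h
  exact h

/-- the coordinate -/
noncomputable def dflt (G : GeoDat2 C) : XI G.AK ≃ᵐ H3 :=
  letI := G.uK
  MeasurableEquiv.funUnique G.AK.I H3

theorem dflt_apply (z : XI G.AK) : dflt G z = z G.uK.default := rfl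

theorem dflt_symm_apply (P : H3) : (dflt G).symm P = fun _ => P := rfl

theorem mp_dflt : MeasurePreserving (dflt G) volume volume := measurePreserving_default

theorem γ_smul_default (γ : G2 K) (z : XI G.AK) : (γ • z) G.uK.default =
    Matrix.GeneralLinearGroup.map (n := Fin 2) (G.AK.emb G.uK.default) γ • z G.uK.default := rfl

theorem ba_abs : ba k.abs = acomp (acomp (fun P Q => ((‖k.a G.ι P Q‖ : ℝ) : ℂ))
    (fun P Q => ((‖k.a (G.DL.perm G.ι) P Q‖ : ℝ) : ℂ)))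
    (fun P Q => ((‖k.a (G.DL.perm (G.DL.perm G.ι)) P Q‖ : ℝ) : ℂ)) := rfl

/-- **Archimedean push-forward formula**, `ℝ≥0∞`-version. -/
theorem lintegral_kerI {γ : G2 K} {δ : G2 L} (hc : Corr C γ δ) (j : ℕ) {Ψ : XI G.AK → ℝ≥0∞}
    (hΨ : Measurable Ψ) :
    ∫⁻ x : XI G.DL.toArch, ‖k.kerI x (δ • G.DL.σI x)‖ₑ * Ψ (prI G j x) =
      ∫⁻ z : XI G.AK, ‖ba k.abs (z G.uK.default) ((γ • z) G.uK.default)‖ₑ * Ψ z := by
  set i₀ := G.DL.perm^[j] G.ι with hi₀
  have hΨ' : Measurable fun P : H3 => Ψ ((dflt G).symm P) := hΨ.comp (dflt G).symm.measurable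
  have h1 := lintegral_tri_mul (em i₀ δ) (em (G.DL.perm i₀) δ) (em (G.DL.perm (G.DL.perm i₀)) δ)
    (ppi_a k i₀) (ppi_a k (G.DL.perm i₀)) (ppi_a k (G.DL.perm (G.DL.perm i₀))) hΨ'
  have h2 := (G.measurePreserving_coords i₀).lintegral_comp
    (f := fun p : H3 × (H3 × H3) => ‖tri (k.a i₀) (k.a (G.DL.perm i₀))
      (k.a (G.DL.perm (G.DL.perm i₀))) (em i₀ δ) (em (G.DL.perm i₀) δ)
      (em (G.DL.perm (G.DL.perm i₀)) δ) p‖ₑ * Ψ ((dflt G).symm p.1))
    ((continuous_tri _ _ _ (ppi_a k _) (ppi_a k _) (ppi_a k _)).measurable.enorm.mul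
      (hΨ'.comp measurable_fst))
  have h3 := (mp_dflt (G := G)).lintegral_comp_emb (dflt G).measurableEmbedding
    (fun P : H3 => ‖ba k.abs P (Matrix.GeneralLinearGroup.map (n := Fin 2)
      (G.AK.emb G.uK.default) γ • P)‖ₑ * Ψ ((dflt G).symm P))
  have e4 : ∫⁻ x : XI G.DL.toArch, ‖k.kerI x (δ • G.DL.σI x)‖ₑ * Ψ (prI G j x) =
      ∫⁻ x : XI G.DL.toArch, (fun p : H3 × (H3 × H3) => ‖tri (k.a i₀) (k.a (G.DL.perm i₀))
      (k.a (G.DL.perm (G.DL.perm i₀))) (em i₀ δ) (em (G.DL.perm i₀) δ)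
      (em (G.DL.perm (G.DL.perm i₀)) δ) p‖ₑ * Ψ ((dflt G).symm p.1)) (G.coords i₀ x) := by
    refine lintegral_congr fun x => ?_
    rw [kerI_eq k i₀]
    rfl
  refine (e4.trans h2).trans (h1.trans ?_)
  have e5 : ∀ P : H3, (em i₀ δ * em (G.DL.perm i₀) δ * em (G.DL.perm (G.DL.perm i₀)) δ) • P =
      Matrix.GeneralLinearGroup.map (n := Fin 2) (G.AK.emb G.uK.default) γ • P := by
    intro P
    rw [em_N, hi₀, em_N_smul hc]
  have e6 : acomp (acomp (fun P Q => ((‖k.a i₀ P Q‖ : ℝ) : ℂ))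
      (fun P Q => ((‖k.a (G.DL.perm i₀) P Q‖ : ℝ) : ℂ)))
      (fun P Q => ((‖k.a (G.DL.perm (G.DL.perm i₀)) P Q‖ : ℝ) : ℂ)) = ba k.abs := ba_eq k.abs j
  simp only [e5, e6]
  refine h3.symm.trans ?_
  simp only [MeasurableEquiv.symm_apply_apply]
  rfl

/-- **Archimedean push-forward formula**. -/
theorem integral_kerI {γ : G2 K} {δ : G2 L} (hc : Corr C γ δ) (j : ℕ) {Φ : XI G.AK → ℂ}
    (hΦ : Measurable Φ)
    (hfin : ∫⁻ z : XI G.AK, ‖ba k.abs (z G.uK.default) ((γ • z) G.uK.default)‖ₑ * ‖Φ z‖ₑ < ∞) :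
    Integrable (fun x : XI G.DL.toArch => k.kerI x (δ • G.DL.σI x) * Φ (prI G j x)) ∧
      ∫ x : XI G.DL.toArch, k.kerI x (δ • G.DL.σI x) * Φ (prI G j x) =
        ∫ z : XI G.AK, ba k (z G.uK.default) ((γ • z) G.uK.default) * Φ z := by
  set i₀ := G.DL.perm^[j] G.ι with hi₀
  have hΦ' : Measurable fun P : H3 => Φ ((dflt G).symm P) := hΦ.comp (dflt G).symm.measurable
  have e5 : ∀ P : H3, (em i₀ δ * em (G.DL.perm i₀) δ * em (G.DL.perm (G.DL.perm i₀)) δ) • P =
      Matrix.GeneralLinearGroup.map (n := Fin 2) (G.AK.emb G.uK.default) γ • P := by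
    intro P
    rw [em_N, hi₀, em_N_smul hc]
  have e6 : acomp (acomp (fun P Q => ((‖k.a i₀ P Q‖ : ℝ) : ℂ))
      (fun P Q => ((‖k.a (G.DL.perm i₀) P Q‖ : ℝ) : ℂ)))
      (fun P Q => ((‖k.a (G.DL.perm (G.DL.perm i₀)) P Q‖ : ℝ) : ℂ)) = ba k.abs := ba_eq k.abs j
  have h3 := (mp_dflt (G := G)).lintegral_comp_emb (dflt G).measurableEmbedding
    (fun P : H3 => ‖ba k.abs P (Matrix.GeneralLinearGroup.map (n := Fin 2)
      (G.AK.emb G.uK.default) γ • P)‖ₑ * ‖Φ ((dflt G).symm P)‖ₑ)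
  have hfin' : ∫⁻ P, ‖acomp (acomp (fun P Q => ((‖k.a i₀ P Q‖ : ℝ) : ℂ))
      (fun P Q => ((‖k.a (G.DL.perm i₀) P Q‖ : ℝ) : ℂ)))
        (fun P Q => ((‖k.a (G.DL.perm (G.DL.perm i₀)) P Q‖ : ℝ) : ℂ)) P
        ((em i₀ δ * em (G.DL.perm i₀) δ * em (G.DL.perm (G.DL.perm i₀)) δ) • P)‖ₑ *
          ‖Φ ((dflt G).symm P)‖ₑ < ∞ := by
    simp only [e5, e6]
    rw [← h3]
    simp only [MeasurableEquiv.symm_apply_apply]
    exact hfin
  have h1 := integral_tri_mul (em i₀ δ) (em (G.DL.perm i₀) δ) (em (G.DL.perm (G.DL.perm i₀)) δ)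
    (ppi_a k i₀) (ppi_a k (G.DL.perm i₀)) (ppi_a k (G.DL.perm (G.DL.perm i₀))) hΦ' hfin'
  have hmp := G.measurePreserving_coords i₀
  have ek : ∀ x, k.kerI x (δ • G.DL.σI x) * Φ (prI G j x) =
      (fun p : H3 × (H3 × H3) => tri (k.a i₀) (k.a (G.DL.perm i₀))
      (k.a (G.DL.perm (G.DL.perm i₀))) (em i₀ δ) (em (G.DL.perm i₀) δ)
      (em (G.DL.perm (G.DL.perm i₀)) δ) p * Φ ((dflt G).symm p.1)) (G.coords i₀ x) := by
    intro x
    rw [kerI_eq k i₀]
    rfl
  simp only [ek]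
  refine ⟨hmp.integrable_comp_of_integrable h1.1, ?_⟩
  have h7 := integral_map hmp.measurable.aemeasurable (μ := (volume : Measure (XI G.DL.toArch)))
    (f := fun p : H3 × (H3 × H3) => tri (k.a i₀) (k.a (G.DL.perm i₀))
      (k.a (G.DL.perm (G.DL.perm i₀))) (em i₀ δ) (em (G.DL.perm i₀) δ)
      (em (G.DL.perm (G.DL.perm i₀)) δ) p * Φ ((dflt G).symm p.1))
    (by rw [hmp.map_eq]; exact h1.1.aestronglyMeasurable)
  rw [hmp.map_eq] at h7
  rw [← h7, h1.2]
  have h8 := ((mp_dflt (G := G)).integral_comp (dflt G).measurableEmbedding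
    (fun P : H3 => ba k P (Matrix.GeneralLinearGroup.map (n := Fin 2)
      (G.AK.emb G.uK.default) γ • P) * Φ ((dflt G).symm P)))
  have e9 : acomp (acomp (k.a i₀) (k.a (G.DL.perm i₀))) (k.a (G.DL.perm (G.DL.perm i₀))) = ba k :=
    ba_eq k j
  simp only [e5, e9]
  refine h8.symm.trans ?_
  simp only [MeasurableEquiv.symm_apply_apply]
  rfl

end Fermat.LT.GeoDat2
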