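import Fermat.Agent.LT.Geo.Push
import Fermat.Agent.LTG.Geo.Match
import Fermat.Agent.LT.Geo.PushCore
import Fermat.Agent.LT.A.XMeas

/-!
# LT, geometric side: assembly of the push-forward formula from its finite and archimedean halves
-/

set_option autoImplicit false
set_option linter.unusedSectionVars false

open NumberField IsDedekindDomain Matrix MeasureTheory
open Fermat.Agent.LT.D
open scoped ENNReal

namespace Fermat.LT

variable {K L : Type} [Field K] [NumberField K] [Field L] [NumberField L] [Algebra K L]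

namespace GeoDat2

variable {C : Cub K L} {G : GeoDat2 C}

/-- the complex place of `K` -/
abbrev i0 (G : GeoDat2 C) : G.AK.I := G.uK.default

/-- the `j`-th complex place of `L` -/
abbrev ij (G : GeoDat2 C) (j : ℕ) : G.DL.I := (G.DL.perm)^[j] G.ι

theorem emb_ij (G : GeoDat2 C) (j : ℕ) (x : K) :
    G.DL.emb (G.ij j) (algebraMap K L x) = G.AK.emb G.i0 x := by
  induction j with
  | zero => exact G.emb_ι x
  | succ n ih =>
    change G.DL.emb ((G.DL.perm)^[n + 1] G.ι) _ = _
    rw [Function.iterate_succ_apply', G.DL.emb_perm, AlgEquiv.commutes]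
    exact ih

/-- action of `γ` at the complex place of `K` -/
noncomputable def gK_G (G : GeoDat2 C) (γ : G2 K) : GL (Fin 2) ℂ :=
  Matrix.GeneralLinearGroup.map (n := Fin 2) (G.AK.emb G.i0) γ

theorem smul_i0 (γ : G2 K) (x : XI G.AK) : (γ • x) G.i0 = G.gK_G γ • x G.i0 := rfl

theorem Inc_smul_ij (j : ℕ) (t : G2 K) (x : XI G.DL.toArch) :
    ((Cub.Inc t : G2 L) • x) (G.ij j) = G.gK_G t • x (G.ij j) := by
  rw [XI_smul_apply]
  congr 1
  ext a b
  exact G.emb_ij j (t a b)

theorem eq_const (x : XI G.AK) : (fun _ => x G.i0) = x := by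
  funext i
  have : i = G.i0 := G.uK.uniq i
  rw [this]

/-- finite half of the push-forward formula -/
structure FinHalf (k : Pure G.DL.toDatum) (γ : G2 K) (δ : G2 L)
    (P : ∀ v, G.AL v → Yl G.U0 v) : Prop where
  fin : ∀ z : Y G.U0, {y : Y G.DL.toLevel | glueY P y = z ∧ k.kerY y (δ • G.DL.σY y) ≠ 0}.Finite
  sum : ∀ z : Y G.U0, ∑ᶠ y ∈ {y : Y G.DL.toLevel | glueY P y = z ∧ k.kerY y (δ • G.DL.σY y) ≠ 0},
    k.kerY y (δ • G.DL.σY y) = ∏ᶠ v, Gv k v γ (z v)
  suma : ∀ z : Y G.U0,
    ∑ᶠ y ∈ {y : Y G.DL.toLevel | glueY P y = z ∧ k.kerY y (δ • G.DL.σY y) ≠ 0},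
    ((‖k.kerY y (δ • G.DL.σY y)‖ : ℝ) : ℂ) = ∏ᶠ v, Gv k.abs v γ (z v)
  eqv : ∀ t : G2 K, t * γ = γ * t → ∀ y : Y G.DL.toLevel, k.kerY y (δ • G.DL.σY y) ≠ 0 →
    glueY P ((Cub.Inc t : G2 L) • y) = t • glueY P y

/-- archimedean half of the push-forward formula -/
structure ArchHalf (k : Pure G.DL.toDatum) (γ : G2 K) (δ : G2 L) (j : ℕ) : Prop where
  meas : Measurable (fun P => ba k P (G.gK_G γ • P))
  measa : Measurable (fun P => ba k.abs P (G.gK_G γ • P))
  le : ∀ P, ‖ba k P (G.gK_G γ • P)‖ ≤ ‖ba k.abs P (G.gK_G γ • P)‖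
  lint : ∀ ψ : H3 → ℝ≥0∞, Measurable ψ →
    ∫⁻ x : XI G.DL.toArch, ‖k.kerI x (δ • G.DL.σI x)‖ₑ * ψ (x (G.ij j)) =
      ∫⁻ P, ‖ba k.abs P (G.gK_G γ • P)‖ₑ * ψ P
  int : ∀ ψ : H3 → ℂ, Measurable ψ → Integrable (fun P => ba k.abs P (G.gK_G γ • P) * ψ P) →
    ∫ x : XI G.DL.toArch, k.kerI x (δ • G.DL.σI x) * ψ (x (G.ij j)) =
      ∫ P, ba k P (G.gK_G γ • P) * ψ P

/-- `H3 × Y ≃ X` on the `K`-side -/
noncomputable def eK (G : GeoDat2 C) : H3 × Y G.U0 ≃ᵐ X G.DK0 where
  toFun p := (fun _ => p.1, p.2)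
  invFun x := (x.1 G.i0, x.2)
  left_inv p := rfl
  right_inv x := Prod.ext (eq_const x.1) rfl
  measurable_toFun := by
    refine Measurable.prodMk ?_ measurable_snd
    exact measurable_pi_lambda _ fun _ => measurable_fst
  measurable_invFun := by
    refine Measurable.prodMk ?_ measurable_snd
    exact (measurable_pi_apply (G.i0)).comp measurable_fst

theorem measurePreserving_eK (G : GeoDat2 C) :
    MeasurePreserving G.eK ((volume : Measure H3).prod Measure.count) volume := by
  have h1 : MeasurePreserving (fun P : H3 => (fun _ => P : XI G.AK)) volume volume := by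
    let _ := G.uK
    have h0 := (measurePreserving_piUnique (X := fun _ : G.AK.I => H3)
      (fun _ => (volume : Measure H3)))
    exact h0.symm
  exact h1.prod (MeasurePreserving.id _)

theorem measurable_glueX (P : ∀ v, G.AL v → Yl G.U0 v) (j : ℕ) : Measurable (glueX P j) := by
  unfold glueX
  refine Measurable.prodMk ?_ ((measurable_of_countable (glueY P)).comp measurable_snd)
  exact measurable_pi_lambda _ fun _ => (measurable_pi_apply _).comp measurable_fst

theorem measurable_kerI (k : Pure G.DL.toDatum) (δ : G2 L) :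
    Measurable fun x : XI G.DL.toArch => k.kerI x (δ • G.DL.σI x) := by
  unfold Pure.kerI
  refine Finset.measurable_prod _ fun i _ => ?_
  have h1 : Continuous fun x : XI G.DL.toArch => (x i, (δ • G.DL.σI x) i) := by
    refine (continuous_apply i).prodMk ?_
    change Continuous fun x : XI G.DL.toArch =>
      (Matrix.GeneralLinearGroup.map (n := Fin 2) (G.DL.emb i) δ) • (x (G.DL.perm i))
    exact (continuous_const_smul _).comp (continuous_apply _)
  exact ((k.a_cont i).measurable).comp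
    (Measurable.prodMk (continuous_fst.comp h1).measurable (continuous_snd.comp h1).measurable)

/-- **Assembly**: the two halves give the push-forward formula. -/
theorem isPush_of_halves (k : Pure G.DL.toDatum) (γ : G2 K) (δ : G2 L)
    (P : ∀ v, G.AL v → Yl G.U0 v) (j : ℕ) (hf : FinHalf k γ δ P) (ha : ArchHalf k γ δ j) :
    IsPush k γ δ (glueX P j) where
  meas := measurable_glueX P j
  eqv t ht x hx := by
    refine Prod.ext ?_ ?_
    · refine funext fun i => ?_
      have hi : i = G.i0 := G.uK.uniq i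
      subst hi
      exact Inc_smul_ij j t x.1
    · have h2 : k.kerY x.2 (δ • G.DL.σY x.2) ≠ 0 := by
        intro h0
        apply hx
        change k.kerI _ _ * k.kerY x.2 (δ • G.DL.σY x.2) = 0
        rw [h0, mul_zero]
      exact hf.eqv t ht x.2 h2
  push Φ hΦ hint := by
    have hmI : Measurable fun x : XI G.DL.toArch => k.kerI x (δ • G.DL.σI x) :=
      measurable_kerI k δ
    set Ψ : H3 × Y G.U0 → ℝ := fun p => Φ (G.eK p) with hΨ
    have hΨm : Measurable Ψ := hΦ.comp G.eK.measurable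
    have e0 : ∀ (k : Pure G.DL.toDatum) (p : H3 × Y G.U0), flatW k γ (G.eK p) =
        ba k p.1 (G.gK_G γ • p.1) * ∏ᶠ v, Gv k v γ (p.2 v) := fun k p => rfl
    have hint1 : Integrable (fun p : H3 × Y G.U0 =>
        ba k.abs p.1 (G.gK_G γ • p.1) * (∏ᶠ v, Gv k.abs v γ (p.2 v)) * (Ψ p : ℂ))
        ((volume : Measure H3).prod Measure.count) := by
      have h := (measurePreserving_eK G).integrable_comp_of_integrable hint
      exact h
    have hle : ∀ z : Y G.U0, ‖∏ᶠ v, Gv k v γ (z v)‖ ≤ ‖∏ᶠ v, Gv k.abs v γ (z v)‖ := by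
      intro z
      rw [← hf.sum z, ← hf.suma z, finsum_mem_eq_finite_toFinset_sum _ (hf.fin z),
        finsum_mem_eq_finite_toFinset_sum _ (hf.fin z), ← Complex.ofReal_sum, Complex.norm_real,
        Real.norm_of_nonneg (Finset.sum_nonneg fun _ _ => norm_nonneg _)]
      exact norm_sum_le _ _
    have hint2 : Integrable (fun p : H3 × Y G.U0 =>
        ba k p.1 (G.gK_G γ • p.1) * (∏ᶠ v, Gv k v γ (p.2 v)) * (Ψ p : ℂ))
        ((volume : Measure H3).prod Measure.count) := by
      refine hint1.mono ?_ (Filter.Eventually.of_forall fun p => ?_)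
      · refine Measurable.aestronglyMeasurable ?_
        refine ((ha.meas.comp measurable_fst).mul ?_).mul (Complex.measurable_ofReal.comp hΨm)
        exact (measurable_of_countable fun z : Y G.U0 => ∏ᶠ v, Gv k v γ (z v)).comp measurable_snd
      · simp only [norm_mul]
        gcongr
        · exact ha.le p.1
        · exact hle p.2
    obtain ⟨h1, h2⟩ := core_push (μ := (volume : Measure (XI G.DL.toArch)))
      (ν := (volume : Measure H3)) (a := fun x => k.kerI x (δ • G.DL.σI x))
      (F := fun y : Y G.DL.toLevel => k.kerY y (δ • G.DL.σY y)) (pY := glueY P)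
      (pj := fun x => x (G.ij j)) (A := fun P => ba k P (G.gK_G γ • P))
      (Aa := fun P => ba k.abs P (G.gK_G γ • P)) (G := fun z => ∏ᶠ v, Gv k v γ (z v))
      (Ga := fun z => ∏ᶠ v, Gv k.abs v γ (z v)) hmI (measurable_pi_apply _) ha.measa
      hf.fin hf.sum hf.suma ha.lint ha.int hΨm hint1 hint2
    refine ⟨h1, ?_⟩
    rw [← (measurePreserving_eK G).integral_comp' (fun z => flatW k γ z * (Φ z : ℂ))]
    exact h2

end GeoDat2

end Fermat.LT
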