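import Fermat.Agent.LT.Geo.ArchHalf
import Fermat.Agent.LTG.Geo.ArchPush
import Fermat.Agent.LTG.Geo.Push

/-!
# The archimedean half of the push-forward formula: `ArchHalf` holds
-/

set_option autoImplicit false
set_option linter.unusedSectionVars false

open MeasureTheory Matrix Complex
open scoped ENNReal
open Fermat.Agent.LT.D

namespace Fermat.LT

open Fermat.LT.GeoDat2 (acomp)

namespace GeoDat2

variable {K L : Type} [Field K] [NumberField K] [Field L] [NumberField L] [Algebra K L]
  {C : Cub K L} {G : GeoDat2 C} (k : Pure G.DL.toDatum)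

theorem norm_ba_le (P Q : H3) : ‖ba k P Q‖ ≤ ‖ba k.abs P Q‖ :=
  norm_acomp_acomp_le (ppi_a k _) (ppi_a k _) (ppi_a k _) P Q

theorem measurable_ba (γ : G2 K) : Measurable (fun P => ba k P (G.gK_G γ • P)) := by
  have h : Continuous (fun P : H3 => ba k P (G.gK_G γ • P)) :=
    (ppi_ba k).cont.comp (continuous_id.prodMk (continuous_const_smul _))
  exact h.measurable

/-- **The archimedean half of the push-forward formula.** -/
theorem archHalf {γ : G2 K} {δ : G2 L} (hc : Corr C γ δ) (j : ℕ) : ArchHalf k γ δ j where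
  meas := measurable_ba k γ
  measa := measurable_ba k.abs γ
  le P := norm_ba_le k P _
  lint ψ hψ := by
    have h := lintegral_kerI k hc j (Ψ := fun z : XI G.AK => ψ (dflt G z))
      (hψ.comp (dflt G).measurable)
    have h3 := (mp_dflt (G := G)).lintegral_comp_emb (dflt G).measurableEmbedding
      (fun P : H3 => ‖ba k.abs P (G.gK_G γ • P)‖ₑ * ψ P)
    exact h.trans h3
  int ψ hψ hint := by
    have h3 := (mp_dflt (G := G)).lintegral_comp_emb (dflt G).measurableEmbedding
      (fun P : H3 => ‖ba k.abs P (G.gK_G γ • P)‖ₑ * ‖ψ P‖ₑ)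
    have hfin : ∫⁻ z : XI G.AK, ‖ba k.abs (z G.uK.default) ((γ • z) G.uK.default)‖ₑ *
        ‖ψ (dflt G z)‖ₑ < ∞ := by
      refine lt_of_eq_of_lt h3 ?_
      have := hint.2
      rw [hasFiniteIntegral_iff_enorm] at this
      simpa only [enorm_mul] using this
    have h := (integral_kerI k hc j (Φ := fun z : XI G.AK => ψ (dflt G z))
      (hψ.comp (dflt G).measurable) hfin).2
    have h4 := ((mp_dflt (G := G)).integral_comp (dflt G).measurableEmbedding
      (fun P : H3 => ba k P (G.gK_G γ • P) * ψ P))
    exact h.trans h4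

end GeoDat2

end Fermat.LT
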