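import Fermat.Agent.LT.Geo.Deep
import Fermat.Agent.LTG.Geo.ArchHalf
import Fermat.Agent.LTG.Geo.FinPush
import Fermat.Agent.LT.Geo.DeepQ
import Fermat.Agent.LT.Geo.ConvF
import Fermat.Agent.LT.A.Compare

/-!
# LT, geometric side: the matching pure tensor on the (deep) `K`-side

* `bPure k : Pure G.DK`;
* `G.piX : X G.DK → X G.DK0`, `bPure_ker_smul : (bPure k).ker x (γ • x) = C⁻¹ * flatW k γ (π x)`;
* `deep_push` : the deep push-forward formula.
-/

set_option autoImplicit false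
set_option linter.unusedSectionVars false

open NumberField IsDedekindDomain Matrix MeasureTheory
open Fermat.Agent.LT.D
open scoped ENNReal

namespace Fermat.LT

section tfn

variable {F : Type} [Field F]

theorem tfn_mem {H H' : Subgroup (G2 F)} {a b : ℂ} {g : G2 F} (h : g ∈ H) :
    tfn H H' a b g = a := if_pos h

theorem tfn_mem' {H H' : Subgroup (G2 F)} {a b : ℂ} {g : G2 F} (h : g ∉ H) (h' : g ∈ H') :
    tfn H H' a b g = b := by
  unfold tfn
  rw [if_neg h, if_pos h']

theorem mem_of_tfn {H H' : Subgroup (G2 F)} (hH : H ≤ H') {a b : ℂ} {g : G2 F}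
    (h : tfn H H' a b g ≠ 0) : g ∈ H' := by
  by_contra hc
  apply h
  unfold tfn
  rw [if_neg fun h' => hc (hH h'), if_neg hc]

theorem biInv_tfn {H H' : Subgroup (G2 F)} (hH : H ≤ H') (a b : ℂ) : BiInv H (tfn H H' a b) := by
  intro h hh h' hh' g
  have e : ∀ M : Subgroup (G2 F), h ∈ M → h' ∈ M → (h * g * h' ∈ M ↔ g ∈ M) := by
    intro M h1 h2
    rw [Subgroup.mul_mem_cancel_right _ h2, Subgroup.mul_mem_cancel_left _ h1]
  have e1 := e H hh hh'
  have e2 := e H' (hH hh) (hH hh')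
  by_cases h1 : g ∈ H
  · rw [tfn_mem h1, tfn_mem (e1.mpr h1)]
  · by_cases h2 : g ∈ H'
    · rw [tfn_mem' h1 h2, tfn_mem' (fun h3 => h1 (e1.mp h3)) (e2.mpr h2)]
    · unfold tfn
      rw [if_neg h1, if_neg h2, if_neg (fun h3 => h1 (e1.mp h3)),
        if_neg (fun h3 => h2 (e2.mp h3))]

/-- functions supported on the standard maximal compact (mod centre) subgroup have finite
support -/
theorem finS_of_stdH [NumberField F] (U : Level F) {w : Pl F} {f : G2 F → ℂ}
    (h : ∀ g, f g ≠ 0 → g ∈ stdH w) : FinS (U.H w) f := by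
  refine (dlY_finite w ((1 : G2 F) : Yl U w) 1).subset ?_
  intro c hc
  change dlY w ((1 : G2 F) : Yl U w) c ≤ 1
  conv_lhs => rw [← QuotientGroup.out_eq' c]
  rw [dlY_mk, inv_one, one_mul]
  exact h _ hc

end tfn

variable {K L : Type} [Field K] [NumberField K] [Field L] [NumberField L] [Algebra K L]

namespace GeoDat2

variable {C : Cub K L} {G : GeoDat2 C} (k : Pure G.DL.toDatum)

theorem up_injective : Function.Injective G.up :=
  Function.LeftInverse.injective G.down_up

/-- the three places above a split place -/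
theorem Inc_mem_H_iff (w : Pl L) (j : ℕ) (g : G2 K) :
    Cub.Inc g ∈ G.DL.H (((pl C).symm)^[j] w) ↔ Cub.Inc g ∈ G.DL.H w := by
  induction j with
  | zero => rfl
  | succ j ih =>
    rw [← ih, Function.iterate_succ_apply']
    rw [← G.DL.H_pl ((pl C).symm (((pl C).symm)^[j] w)), C.S_Inc, Equiv.apply_symm_apply]

theorem split_mem_iff {v : Pl K} (hv : Split C v (G.up v)) (j : ℕ) (g : G2 K) :
    Cub.Inc g ∈ G.DL.H (((pl C).symm)^[j] (G.up v)) ↔ g ∈ G.U0.H v := by
  rw [Inc_mem_H_iff, G.H_split v hv]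

theorem biInv_fs_deep {v : Pl K} (hv : Split C v (G.up v)) (j : Fin 3) :
    BiInv (G.U0.H v) (fs k v j) := by
  intro h hh h' hh' g
  unfold fs
  rw [map_mul, map_mul]
  exact k.f_bi _ _ ((split_mem_iff hv _ _).mpr hh) _ ((split_mem_iff hv _ _).mpr hh') _

theorem finS_fs_deep {v : Pl K} (hv : Split C v (G.up v)) (j : Fin 3) :
    FinS (G.U0.H v) (fs k v j) := by
  set w := ((pl C).symm)^[(j : ℕ)] (G.up v) with hw
  refine Set.Finite.of_finite_image (f := fun c : G2 K ⧸ G.U0.H v =>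
    ((Cub.Inc c.out : G2 L) : G2 L ⧸ G.DL.H w)) ((k.f_fin w).subset ?_) ?_
  · rintro _ ⟨c, hc, rfl⟩
    obtain ⟨h, hh⟩ := QuotientGroup.mk_out_eq_mul (G.DL.H w) (Cub.Inc c.out : G2 L)
    change k.f w (((Cub.Inc c.out : G2 L) : G2 L ⧸ G.DL.H w)).out ≠ 0
    rw [hh]
    have := k.f_bi w 1 (one_mem _) h h.2 (Cub.Inc c.out)
    rw [one_mul] at this
    rw [this]
    exact hc
  · intro c _ c' _ h
    have h1 : ((Cub.Inc c.out : G2 L) : G2 L ⧸ G.DL.H w) =
      ((Cub.Inc c'.out : G2 L) : G2 L ⧸ G.DL.H w) := h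
    rw [QuotientGroup.eq, ← map_inv, ← map_mul, split_mem_iff hv, ← QuotientGroup.eq] at h1
    rwa [QuotientGroup.out_eq', QuotientGroup.out_eq'] at h1

/-! ### the ramified places -/

theorem Rr_eq_T1 {v : Pl K} (h : G.DL.n (G.up v) = 0) : Rr k v = T1 v := by
  funext g
  unfold Rr
  rw [if_pos h]

theorem Rr_eq_tfn {v : Pl K} (h : G.DL.n (G.up v) ≠ 0) :
    Rr k v = tfn (HT v G.mb) (HB v G.mb) (3 * k.f (G.up v) 1 + 6 * k.f (G.up v) (un 1))
      (k.f (G.up v) (un 1)) := by
  funext g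
  unfold Rr
  rw [if_neg h]

theorem phi_eq_phiR {v : Pl K} (h : G.DL.n (G.up v) = 0) : G.phi v = phiR C v (G.nr v) := by
  funext x
  unfold phi
  rw [if_pos h]

theorem phi_eq_phiB {v : Pl K} (h : G.DL.n (G.up v) ≠ 0) : G.phi v = phiB v := by
  funext x
  unfold phi
  rw [if_neg h]

theorem biInv_Rr {v : Pl K} (hr : Ram C v (G.up v)) : BiInv (G.U0.H v) (Rr k v) := by
  by_cases h : G.DL.n (G.up v) = 0
  · rw [Rr_eq_T1 k h, (G.H_ram v hr h).2]
    exact biInv_T1 v
  · rw [Rr_eq_tfn k h, (G.H_bad v hr h).2.1]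
    exact biInv_tfn (HT_le_HB v G.mb) _ _

theorem finS_Rr (U : Level K) (v : Pl K) : FinS (U.H v) (Rr k v) := by
  by_cases h : G.DL.n (G.up v) = 0
  · rw [Rr_eq_T1 k h]
    exact finS_T1 U v
  · rw [Rr_eq_tfn k h]
    exact finS_of_stdH U fun g hg => HB_le_stdH v G.mb (mem_of_tfn (HT_le_HB v G.mb) hg)

/-- invariance of the class function at a ramified place -/
theorem phi_inv {v : Pl K} (hr : Ram C v (G.up v)) {a b : G2 K} (ha : a ∈ G.U.H v)
    (hb : b ∈ G.U.H v) {g : G2 K} (hg : Rr k v g ≠ 0) :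
    G.phi v (td (a * g * b)) = G.phi v (td g) := by
  by_cases h : G.DL.n (G.up v) = 0
  · rw [Rr_eq_T1 k h] at hg
    have h1 := dl_of_T1 v hg
    have h2 : dl v (a * g) = qv v := by rw [dl_mul_left v g (G.U.le_std v ha), h1]
    rw [phi_eq_phiR h, (G.U_ram v hr h b hb (a * g) h2).2, (G.U_ram v hr h a ha g h1).1]
  · rw [Rr_eq_tfn k h] at hg
    have h1 := mem_of_tfn (HT_le_HB v G.mb) hg
    have ha' : a ∈ HB v G.mb := by
      have := G.U_le v ha
      rw [(G.H_bad v hr h).2.1] at this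
      exact HT_le_HB v G.mb this
    rw [phi_eq_phiB h, (G.U_bad v hr h b hb (a * g) (mul_mem ha' h1)).2, (G.U_bad v hr h a ha g h1).1]

theorem norm_Rr_le (v : Pl K) (g : G2 K) : ‖Rr k v g‖ ≤ ‖Rr k.abs v g‖ := by
  by_cases h : G.DL.n (G.up v) = 0
  · rw [Rr_eq_T1 k h, Rr_eq_T1 k.abs h]
  · have e : ∀ x, k.abs.f (G.up v) x = ((‖k.f (G.up v) x‖ : ℝ) : ℂ) := fun x => rfl
    rw [Rr_eq_tfn k h, Rr_eq_tfn k.abs h, e, e]
    unfold tfn
    split_ifs
    · have e2 : (3 * ((‖k.f (G.up v) 1‖ : ℝ) : ℂ) + 6 * ((‖k.f (G.up v) (un 1)‖ : ℝ) : ℂ)) =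
          ((3 * ‖k.f (G.up v) 1‖ + 6 * ‖k.f (G.up v) (un 1)‖ : ℝ) : ℂ) := by
        push_cast; ring
      rw [e2, Complex.norm_real, Real.norm_of_nonneg (by positivity)]
      refine (norm_add_le _ _).trans (le_of_eq ?_)
      rw [norm_mul, norm_mul]
      simp
    · rw [Complex.norm_real, norm_norm]
    · exact le_rfl

theorem bf_ram_eq {v : Pl K} (h : Ram C v (G.up v)) :
    bf k v = fun g => ((G.U.H v).relIndex (G.U0.H v) : ℂ)⁻¹ * (Rr k v g * G.phi v (td g)) := by
  funext g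
  unfold bf
  rw [if_neg h.not_split, if_pos h]

theorem biInv_bf (v : Pl K) : BiInv (G.U.H v) (bf k v) := by
  rcases G.typ v with h | h | h
  · have e : bf k v = convF (G.U0.H v) (convF (G.U0.H v) (fs k v 0) (fs k v 1)) (fs k v 2) := by
      funext g
      unfold bf
      rw [if_pos h]
    rw [e]
    exact (biInv_convF (biInv_convF (biInv_fs_deep k h 0) (biInv_fs_deep k h 1)) (biInv_fs_deep k h 2)).mono
      (G.U_le v)
  · have e : bf k v = unitF (G.U0.H v) := by
      funext g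
      unfold bf
      rw [if_neg h.not_split, if_neg h.not_ram_deep]
    rw [e]
    exact (biInv_unitF _).mono (G.U_le v)
  · intro a ha b hb g
    rw [bf_ram_eq k h]
    change _ * (Rr k v (a * g * b) * _) = _ * (Rr k v g * _)
    rw [biInv_Rr k h a (G.U_le v ha) b (G.U_le v hb)]
    by_cases hT : Rr k v g = 0
    · rw [hT, zero_mul, zero_mul]
    · rw [phi_inv k h ha hb hT]

theorem finS_bf (v : Pl K) : FinS (G.U.H v) (bf k v) := by
  rcases G.typ v with h | h | h
  · have e : bf k v = convF (G.U0.H v) (convF (G.U0.H v) (fs k v 0) (fs k v 1)) (fs k v 2) := by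
      funext g
      unfold bf
      rw [if_pos h]
    rw [e, G.U_eq v fun h' => h'.not_split h]
    exact finS_convF (biInv_convF (biInv_fs_deep k h 0) (biInv_fs_deep k h 1)) (biInv_fs_deep k h 2)
      (finS_convF (biInv_fs_deep k h 0) (biInv_fs_deep k h 1) (finS_fs_deep k h 0) (finS_fs_deep k h 1))
      (finS_fs_deep k h 2)
  · have e : bf k v = unitF (G.U0.H v) := by
      funext g
      unfold bf
      rw [if_neg h.not_split, if_neg h.not_ram_deep]
    rw [e, G.U_eq v h.not_ram_deep]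
    exact finS_unitF
  · refine (finS_Rr k G.U v).subset ?_
    intro c hc
    change bf k v c.out ≠ 0 at hc
    change Rr k v c.out ≠ 0
    rw [bf_ram_eq k h] at hc
    exact left_ne_zero_of_mul (right_ne_zero_of_mul hc)

theorem fs_eq_unitF {v : Pl K} (hv : Split C v (G.up v)) (j : Fin 3)
    (h : k.f (((pl C).symm)^[(j : ℕ)] (G.up v)) =
      unitF (G.DL.H (((pl C).symm)^[(j : ℕ)] (G.up v)))) :
    fs k v j = unitF (G.U0.H v) := by
  funext g
  unfold fs
  rw [h]
  unfold unitF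
  have e := split_mem_iff hv (j : ℕ) g
  by_cases hg : g ∈ G.U0.H v
  · rw [if_pos hg, if_pos (e.mpr hg)]
  · rw [if_neg hg, if_neg fun h' => hg (e.mp h')]

theorem bf_one : {v | bf k v ≠ unitF (G.U.H v)}.Finite := by
  have hinj : ∀ j : ℕ, Function.Injective fun v : Pl K => ((pl C).symm)^[j] (G.up v) := fun j =>
    ((pl C).symm.injective.iterate j).comp up_injective
  refine (G.ram_fin.union (((k.f_one.preimage (hinj 0).injOn).union
    (k.f_one.preimage (hinj 1).injOn)).union (k.f_one.preimage (hinj 2).injOn))).subset ?_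
  intro v hv
  by_contra hc
  rw [Set.mem_union, Set.mem_union, Set.mem_union, not_or, not_or, not_or] at hc
  obtain ⟨h1, ⟨h2, h3⟩, h4⟩ := hc
  replace h1 : ¬ Ram C v (G.up v) := h1
  replace h2 := not_not.mp h2
  replace h3 := not_not.mp h3
  replace h4 := not_not.mp h4
  apply hv
  rcases G.typ v with h | h | h
  · have e : bf k v = convF (G.U0.H v) (convF (G.U0.H v) (fs k v 0) (fs k v 1)) (fs k v 2) := by
      funext g
      unfold bf
      rw [if_pos h]
    rw [e, fs_eq_unitF k h 0 h2, fs_eq_unitF k h 1 h3, fs_eq_unitF k h 2 h4,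
      convF_unitF_left (biInv_unitF _), convF_unitF_left (biInv_unitF _), G.U_eq v h1]
  · funext g
    unfold bf
    rw [if_neg h.not_split, if_neg h.not_ram_deep, G.U_eq v h.not_ram_deep]
  · exact absurd h h1

/-- **The matching pure tensor on the deep `K`-side.** -/
noncomputable def bPure : Pure G.DK where
  a _ := ba k
  f v := bf k v
  a_inv _ := (ppi_ba k).inv
  a_cont _ := (ppi_ba k).cont
  a_supp := by
    obtain ⟨R, hR⟩ := (ppi_ba k).supp
    exact ⟨R, fun _ P Q h => hR P Q h⟩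
  f_bi v := biInv_bf k v
  f_fin v := finS_bf k v
  f_one := bf_one k

@[simp] theorem bPure_a (i : G.DK.I) : (bPure k).a i = ba k := rfl

@[simp] theorem bPure_f (v : Pl K) : (bPure k).f v = bf k v := rfl

/-! ### the projection to the flat space -/

/-- the projection `X G.DK → X G.DK0` -/
noncomputable def piX (G : GeoDat2 C) (x : X G.DK) : X G.DK0 := (x.1, Level.proj G.U_le x.2)

theorem piX_fst (x : X G.DK) : (G.piX x).1 = x.1 := rfl

theorem piX_snd (x : X G.DK) (v : Pl K) : (G.piX x).2 v = pq (G.U_le v) (x.2 v) := rfl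

theorem piX_smul (g : G2 K) (x : X G.DK) : G.piX (g • x) = g • G.piX x :=
  Prod.ext rfl (Level.proj_smul G.U_le g x.2)

theorem piX_smul_pg (g : PG K) (x : X G.DK) : G.piX (g • x) = g • G.piX x := by
  obtain ⟨g, rfl⟩ := Matrix.ProjGenLinGroup.mk_surjective g
  exact piX_smul g x

theorem measurable_proj : Measurable (Level.proj (U := G.U) (U' := G.U0) G.U_le) :=
  fun _ _ => trivial

theorem measurable_piX : Measurable G.piX :=
  measurable_fst.prodMk (measurable_proj.comp measurable_snd)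

/-- the index `∏_{v ramified} [U0_v : U_v]` -/
noncomputable def cR (G : GeoDat2 C) : ℕ :=
  ∏ v ∈ G.ram_fin.toFinset, (G.U.H v).relIndex (G.U0.H v)

theorem cR_ne_zero : G.cR ≠ 0 :=
  Finset.prod_ne_zero_iff.mpr fun v _ => Level.relIndex_ne_zero G.U_le v

theorem map_piX : (volume : Measure (X G.DK)).map G.piX =
    (G.cR : ℝ≥0∞) • (volume : Measure (X G.DK0)) := by
  have h1 : (volume : Measure (Y G.U)).map (Level.proj G.U_le) =
      (G.cR : ℝ≥0∞) • (volume : Measure (Y G.U0)) := by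
    refine Level.map_count G.U_le G.ram_fin.toFinset fun w hw => ?_
    rw [Set.Finite.mem_toFinset] at hw
    exact (G.U_eq w hw).ge
  have h2 : G.piX = Prod.map (id : XI G.AK → XI G.AK) (Level.proj G.U_le) := rfl
  rw [h2]
  change ((volume : Measure (XI G.AK)).prod (volume : Measure (Y G.U))).map _ =
    (G.cR : ℝ≥0∞) • ((volume : Measure (XI G.AK)).prod (volume : Measure (Y G.U0)))
  rw [← Measure.map_prod_map _ _ measurable_id measurable_proj, Measure.map_id, h1,
    Measure.prod_smul_right]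

/-! ### the pointwise formula -/

open Classical in
/-- the local constant -/
noncomputable def cRl (G : GeoDat2 C) (v : Pl K) : ℂ :=
  if Ram C v (G.up v) then ((G.U.H v).relIndex (G.U0.H v) : ℂ)⁻¹ else 1

theorem kw_bf (v : Pl K) (γ : G2 K) (y : Yl G.U v) :
    kw (G.U.H v) (bf k v) y (γ • y) = G.cRl v * Gv k v γ (pq (G.U_le v) y) := by
  obtain ⟨g, rfl⟩ := QuotientGroup.mk_surjective y
  have e1 : γ • (g : Yl G.U v) = ((γ * g : G2 K) : Yl G.U v) := rfl
  have e2 : γ • (g : Yl G.U0 v) = ((γ * g : G2 K) : Yl G.U0 v) := rfl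
  rw [pq_mk, e1, kw_mk (biInv_bf k v)]
  unfold Gv bf cRl
  rw [e2]
  rcases G.typ v with h | h | h
  · rw [if_pos h, if_neg (fun h' => h'.not_split h), if_pos h, one_mul,
      kw_mk (biInv_convF (biInv_convF (biInv_fs_deep k h 0) (biInv_fs_deep k h 1)) (biInv_fs_deep k h 2))]
  · rw [if_neg h.not_split, if_neg h.not_ram_deep, if_neg h.not_ram_deep, if_neg h.not_split,
      if_neg h.not_ram_deep, one_mul, kw_mk (biInv_unitF _)]
  · rw [if_neg h.not_split, if_pos h, if_pos h, if_neg h.not_split, if_pos h,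
      kw_mk (biInv_Rr k h), ← mul_assoc g⁻¹ γ g, td_conj]
    ring

theorem cRl_finite : {v | G.cRl v ≠ 1}.Finite := by
  refine G.ram_fin.subset fun v hv => ?_
  by_contra hc
  replace hc : ¬ Ram C v (G.up v) := hc
  apply hv
  unfold cRl
  rw [if_neg hc]

theorem finprod_cRl : ∏ᶠ v, G.cRl v = (G.cR : ℂ)⁻¹ := by
  rw [finprod_eq_prod_of_mulSupport_subset (s := G.ram_fin.toFinset)]
  · unfold cR
    push_cast
    rw [← Finset.prod_inv_distrib]
    refine Finset.prod_congr rfl fun v hv => ?_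
    rw [Set.Finite.mem_toFinset] at hv
    replace hv : Ram C v (G.up v) := hv
    unfold cRl
    rw [if_pos hv]
  · intro v hv
    rw [Finset.mem_coe, Set.Finite.mem_toFinset]
    by_contra hc
    replace hc : ¬ Ram C v (G.up v) := hc
    apply hv
    unfold cRl
    rw [if_neg hc]

theorem Gv_finite (γ : G2 K) (z : Y G.U) :
    {v | Gv k v γ (Level.proj G.U_le z v) ≠ 1}.Finite := by
  refine (G.cRl_finite.union ((bPure k).kerY_finite z (γ • z))).subset ?_
  intro v hv
  by_contra hc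
  simp only [Set.mem_union, Set.mem_ofPred_eq, not_or, not_not] at hc
  apply hv
  have h1 := kw_bf k v γ (z v)
  have h2 : kw (G.U.H v) (bf k v) (z v) (γ • z v) = 1 := hc.2
  rw [h2, hc.1, one_mul] at h1
  exact h1.symm

theorem proj_surjective : Function.Surjective (Level.proj (U := G.U) (U' := G.U0) G.U_le) := by
  intro z
  have h := Level.card_fibre G.U_le G.ram_fin.toFinset (fun w hw => by
    rw [Set.Finite.mem_toFinset] at hw
    exact (G.U_eq w hw).ge) z
  have h1 : Nat.card {y : Y G.U // Level.proj G.U_le y = z} ≠ 0 := by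
    rw [h]; exact cR_ne_zero
  obtain ⟨⟨y, hy⟩⟩ := (Nat.card_ne_zero.mp h1).1
  exact ⟨y, hy⟩

theorem piX_surjective : Function.Surjective G.piX := by
  rintro ⟨x, z⟩
  obtain ⟨y, rfl⟩ := proj_surjective z
  exact ⟨(x, y), rfl⟩

theorem Gv_finite' (γ : G2 K) (z : Y G.U0) : {v | Gv k v γ (z v) ≠ 1}.Finite := by
  obtain ⟨y, rfl⟩ := proj_surjective z
  exact Gv_finite k γ y

/-- **The pointwise formula.** -/
theorem bPure_ker_smul (γ : G2 K) (x : X G.DK) :
    (bPure k).ker x (γ • x) = (G.cR : ℂ)⁻¹ * flatW k γ (G.piX x) := by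
  have h1 : (bPure k).kerI x.1 (γ • x.1) = ba k (x.1 G.i0) ((γ • x.1) G.i0) := by
    unfold Pure.kerI
    refine (Finset.prod_eq_single_of_mem (G.i0 : G.AK.I) (Finset.mem_univ _) ?_)
    intro i _ hi
    exact absurd (G.uK.uniq i) hi
  have h2 : (bPure k).kerY x.2 (γ • x.2) =
      (G.cR : ℂ)⁻¹ * ∏ᶠ v, Gv k v γ ((G.piX x).2 v) := by
    unfold Pure.kerY
    have e : ∀ v, kw (G.DK.H v) ((bPure k).f v) (x.2 v) ((γ • x.2) v) =
        G.cRl v * Gv k v γ ((G.piX x).2 v) := fun v => kw_bf k v γ (x.2 v)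
    rw [finprod_congr e, finprod_mul_distrib (f := G.cRl) (g := fun v => Gv k v γ ((G.piX x).2 v))
      G.cRl_finite (Gv_finite k γ x.2), finprod_cRl]
  change (bPure k).kerI x.1 (γ • x.1) * (bPure k).kerY x.2 (γ • x.2) = _
  rw [h1, h2]
  unfold flatW
  rw [mul_left_comm]
  rfl

theorem bPure_ker_ne_zero_iff (γ : G2 K) (x : X G.DK) :
    (bPure k).ker x (γ • x) ≠ 0 ↔ flatW k γ (G.piX x) ≠ 0 := by
  rw [bPure_ker_smul, mul_ne_zero_iff]
  have := cR_ne_zero (G := G)
  simp [this]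

/-! ### norm inequality, measurability -/

theorem norm_Gv_le (v : Pl K) (γ : G2 K) (z : Yl G.U0 v) :
    ‖Gv k v γ z‖ ≤ ‖Gv k.abs v γ z‖ := by
  unfold Gv
  rcases G.typ v with h | h | h
  · rw [if_pos h, if_pos h]
    exact norm_convF3_le (biInv_fs_deep k h 0) (biInv_fs_deep k h 1) (finS_fs_deep k h 0) (finS_fs_deep k h 1) _
  · rw [if_neg h.not_split, if_neg h.not_ram_deep, if_neg h.not_split, if_neg h.not_ram_deep]
  · rw [if_neg h.not_split, if_pos h, if_neg h.not_split, if_pos h, norm_mul, norm_mul]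
    exact mul_le_mul_of_nonneg_left (norm_Rr_le k v _) (norm_nonneg _)

theorem norm_finprod_Gv_le (γ : G2 K) (z : Y G.U0) :
    ‖∏ᶠ v, Gv k v γ (z v)‖ ≤ ‖∏ᶠ v, Gv k.abs v γ (z v)‖ := by
  classical
  set S := ((Gv_finite' k γ z).union (Gv_finite' k.abs γ z)).toFinset with hS
  have h1 : ∏ᶠ v, Gv k v γ (z v) = ∏ v ∈ S, Gv k v γ (z v) := by
    refine finprod_eq_prod_of_mulSupport_subset _ fun v hv => ?_
    rw [Finset.mem_coe, hS, Set.Finite.mem_toFinset]
    exact Or.inl hv
  have h2 : ∏ᶠ v, Gv k.abs v γ (z v) = ∏ v ∈ S, Gv k.abs v γ (z v) := by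
    refine finprod_eq_prod_of_mulSupport_subset _ fun v hv => ?_
    rw [Finset.mem_coe, hS, Set.Finite.mem_toFinset]
    exact Or.inr hv
  rw [h1, h2, norm_prod, norm_prod]
  exact Finset.prod_le_prod (fun v _ => norm_nonneg _) fun v _ => norm_Gv_le k v γ _

theorem norm_flatW_le (γ : G2 K) (z : X G.DK0) : ‖flatW k γ z‖ ≤ ‖flatW k.abs γ z‖ := by
  unfold flatW
  rw [norm_mul, norm_mul]
  exact mul_le_mul (norm_ba_le k _ _) (norm_finprod_Gv_le k γ z.2) (norm_nonneg _) (norm_nonneg _)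

theorem measurable_flatW (γ : G2 K) : Measurable (flatW (G := G) k γ) := by
  have h1 : Measurable fun z : X G.DK0 => ba k (z.1 G.i0) (G.gK_G γ • z.1 G.i0) :=
    (measurable_ba k γ).comp ((measurable_pi_apply G.i0).comp measurable_fst)
  have h2 : Measurable fun z : X G.DK0 => ∏ᶠ v, Gv k v γ (z.2 v) :=
    (measurable_of_countable fun z : Y G.U0 => ∏ᶠ v, Gv k v γ (z v)).comp measurable_snd
  exact h1.mul h2

/-! ### the deep push-forward formula -/

/-- **The deep push-forward formula.** -/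
theorem deep_push (γ : G2 K) (Φ : X G.DK0 → ℝ) (hΦ : Measurable Φ)
    (hint : Integrable (fun z => flatW k.abs γ z * (Φ z : ℂ))) :
    Integrable (fun x => (bPure k).ker x (γ • x) * (Φ (G.piX x) : ℂ)) ∧
    ∫ x, (bPure k).ker x (γ • x) * (Φ (G.piX x) : ℂ) = ∫ z, flatW k γ z * (Φ z : ℂ) := by
  have hc : (G.cR : ℂ) ≠ 0 := Nat.cast_ne_zero.mpr cR_ne_zero
  have hm : Measurable fun z : X G.DK0 => flatW k γ z * (Φ z : ℂ) :=
    (measurable_flatW k γ).mul (Complex.measurable_ofReal.comp hΦ)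
  have hint1 : Integrable (fun z : X G.DK0 => flatW k γ z * (Φ z : ℂ)) := by
    refine hint.mono hm.aestronglyMeasurable (Filter.Eventually.of_forall fun z => ?_)
    rw [norm_mul, norm_mul]
    exact mul_le_mul_of_nonneg_right (norm_flatW_le k γ z) (norm_nonneg _)
  have hint2 : Integrable (fun z : X G.DK0 => flatW k γ z * (Φ z : ℂ))
      ((volume : Measure (X G.DK)).map G.piX) := by
    rw [map_piX]
    exact hint1.smul_measure (ENNReal.natCast_ne_top _)
  have hint3 : Integrable (fun x : X G.DK => flatW k γ (G.piX x) * (Φ (G.piX x) : ℂ)) :=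
    hint2.comp_measurable measurable_piX
  have e : (fun x => (bPure k).ker x (γ • x) * (Φ (G.piX x) : ℂ)) =
      fun x : X G.DK => (G.cR : ℂ)⁻¹ * (flatW k γ (G.piX x) * (Φ (G.piX x) : ℂ)) := by
    funext x
    rw [bPure_ker_smul, mul_assoc]
  rw [e]
  refine ⟨hint3.const_mul _, ?_⟩
  rw [integral_const_mul]
  have h1 : ∫ x : X G.DK, flatW k γ (G.piX x) * (Φ (G.piX x) : ℂ) =
      ∫ z, flatW k γ z * (Φ z : ℂ) ∂((volume : Measure (X G.DK)).map G.piX) :=
    (integral_map measurable_piX.aemeasurable hm.aestronglyMeasurable).symm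
  rw [h1, map_piX, integral_smul_measure, ENNReal.toReal_natCast, Complex.real_smul,
    Complex.ofReal_natCast, ← mul_assoc, inv_mul_cancel₀ hc, one_mul]

end GeoDat2

end Fermat.LT
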