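import Fermat.Agent.LT.Geo.BMul
import Fermat.Agent.LTG.Geo.Deep
import Fermat.Agent.LTG.Geo.Split
import Fermat.Agent.LT.Geo.PureMul
import Fermat.Agent.LT.Geo.Ops
import Fermat.Agent.LT.Geo.AvPl

/-!
# Multiplicativity of the matching `bPure` (LT, PMUL)

* `exists_incEquiv`, `convF_Inc` : convolution is compatible with `GL₂(K) → GL₂(L)` at the three
  places above a split place;
* `aPure A : Pure G.DK` : the matching of a pure tensor which is a unit at the inert and ramified
  places (product of the three components at the split places, unit elsewhere);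
* `bPure_mul : bPure (A.mul B) = (aPure A).mul (bPure B)` (under commutation of the components at
  the split places, `SCom A B`), `aPure_mul`;
* `SCom` : sufficient conditions;
* `bPure_insL`, `aPure_insL`, `bPure_insAL`, `aPure_insAL` : insertions.
-/

set_option autoImplicit false
set_option linter.unusedSectionVars false

open NumberField IsDedekindDomain Matrix MeasureTheory
open Fermat.Agent.LT.D

namespace Fermat.LT.GeoDat2
export Fermat.LT.GeoDatum (commute_of_symmPair commute_stdH)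
end Fermat.LT.GeoDat2

namespace Fermat.LT

variable {K L : Type} [Field K] [NumberField K] [Field L] [NumberField L] [Algebra K L]

namespace GeoDat2

variable {C : Cub K L} {G : GeoDat2 C}

/-! ### the three places above a split place -/

/-- transport of cosets to the `j`-th place above a split place -/
theorem exists_incEquiv {v : Pl K} (hv : Split C v (G.up v)) (j : ℕ) :
    ∃ e : Yl G.U0 v ≃ Yl G.DL.toLevel (G.wj v j), ∀ g : G2 K,
      e (g : Yl G.U0 v) = ((Cub.Inc g : G2 L) : Yl G.DL.toLevel (G.wj v j)) := by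
  induction j with
  | zero => exact ⟨eS hv, fun g => iS_mk hv g⟩
  | succ j ih =>
    obtain ⟨e, he⟩ := ih
    have hb : Function.Bijective (G.DL.σl (G.pl_wj_succ v j)) :=
      ⟨G.DL.σl_injective _, G.DL.σl_surjective _⟩
    refine ⟨e.trans (Equiv.ofBijective _ hb).symm, fun g => ?_⟩
    rw [Equiv.trans_apply, he, Equiv.symm_apply_eq]
    have h : G.DL.σl (G.pl_wj_succ v j) ((Cub.Inc g : G2 L) : Yl G.DL.toLevel (G.wj v (j + 1))) =
        ((Cub.Inc g : G2 L) : Yl G.DL.toLevel (G.wj v j)) := by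
      rw [TwDatum.σl_mk, C.S_Inc]
    exact h.symm

theorem biInv_Inc {v : Pl K} (hv : Split C v (G.up v)) (j : ℕ) {f : G2 L → ℂ}
    (hf : BiInv (G.DL.H (G.wj v j)) f) : BiInv (G.U0.H v) fun g => f (Cub.Inc g) := by
  intro h hh h' hh' g
  change f (Cub.Inc (h * g * h')) = f (Cub.Inc g)
  rw [map_mul, map_mul]
  exact hf _ ((split_mem_iff hv j _).mpr hh) _ ((split_mem_iff hv j _).mpr hh') _

theorem kw_Inc {v : Pl K} (hv : Split C v (G.up v)) (j : ℕ) {f : G2 L → ℂ}
    (hf : BiInv (G.DL.H (G.wj v j)) f) {e : Yl G.U0 v ≃ Yl G.DL.toLevel (G.wj v j)}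
    (he : ∀ g : G2 K, e (g : Yl G.U0 v) = ((Cub.Inc g : G2 L) : Yl G.DL.toLevel (G.wj v j)))
    (a b : Yl G.U0 v) :
    kw (G.DL.H (G.wj v j)) f (e a) (e b) = kw (G.U0.H v) (fun g => f (Cub.Inc g)) a b := by
  obtain ⟨a, rfl⟩ := QuotientGroup.mk_surjective a
  obtain ⟨b, rfl⟩ := QuotientGroup.mk_surjective b
  have ea : e (QuotientGroup.mk a) = ((Cub.Inc a : G2 L) : Yl G.DL.toLevel (G.wj v j)) := he a
  have eb : e (QuotientGroup.mk b) = ((Cub.Inc b : G2 L) : Yl G.DL.toLevel (G.wj v j)) := he b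
  rw [ea, eb, kw_mk hf, kw_mk (biInv_Inc hv j hf), map_mul, map_inv]

theorem finS_Inc {v : Pl K} (hv : Split C v (G.up v)) (j : ℕ) {f : G2 L → ℂ}
    (hf : BiInv (G.DL.H (G.wj v j)) f) (hf' : FinS (G.DL.H (G.wj v j)) f) :
    FinS (G.U0.H v) fun g => f (Cub.Inc g) := by
  obtain ⟨e, he⟩ := exists_incEquiv hv j
  refine finS_of_rowFin (biInv_Inc hv j hf) fun a => ?_
  refine ((rowFin_kw hf hf' (e a)).preimage e.injective.injOn).subset ?_
  intro b hb
  rw [Set.mem_preimage, Set.mem_ofPred_eq, kw_Inc hv j hf he]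
  exact hb

/-- **Convolution and `GL₂(K) → GL₂(L)`** at a place above a split place. -/
theorem convF_Inc {v : Pl K} (hv : Split C v (G.up v)) (j : ℕ) {f f' : G2 L → ℂ}
    (hf : BiInv (G.DL.H (G.wj v j)) f) (hf' : BiInv (G.DL.H (G.wj v j)) f') (g : G2 K) :
    convF (G.DL.H (G.wj v j)) f f' (Cub.Inc g) =
      convF (G.U0.H v) (fun g => f (Cub.Inc g)) (fun g => f' (Cub.Inc g)) g := by
  obtain ⟨e, he⟩ := exists_incEquiv hv j
  rw [convF_eq_kcomp hf hf', convF_eq_kcomp (biInv_Inc hv j hf) (biInv_Inc hv j hf')]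
  have h1 : e ((1 : G2 K) : Yl G.U0 v) = ((1 : G2 L) : Yl G.DL.toLevel (G.wj v j)) := by
    rw [he, map_one]
  have e1 : (fun a b => kw (G.DL.H (G.wj v j)) f (e a) (e b)) =
      kw (G.U0.H v) (fun g => f (Cub.Inc g)) := by
    funext a b
    exact kw_Inc hv j hf he a b
  have e2 : (fun a b => kw (G.DL.H (G.wj v j)) f' (e a) (e b)) =
      kw (G.U0.H v) (fun g => f' (Cub.Inc g)) := by
    funext a b
    exact kw_Inc hv j hf' he a b
  have h2 := kcomp_comp_equiv e (kw (G.DL.H (G.wj v j)) f) (kw (G.DL.H (G.wj v j)) f')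
    ((1 : G2 K) : Yl G.U0 v) (g : Yl G.U0 v)
  rw [e1, e2, h1, he] at h2
  exact h2.symm

/-! ### The three components -/

section comps

variable (k k' : Pure G.DL.toDatum) {v : Pl K} (hv : Split C v (G.up v))

/-- the three components, as elements of the Hecke algebra -/
noncomputable def fsH (j : Fin 3) : HAlg (G.U0.H v) :=
  ⟨fs k v j, biInv_fs_deep k hv j, finS_fs_deep k hv j⟩

@[simp] theorem fsH_f (j : Fin 3) : (fsH k hv j).f = fs k v j := rfl

include hv in
theorem fs_mul (j : Fin 3) :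
    fs (k.mul k') v j = convF (G.U0.H v) (fs k v j) (fs k' v j) := by
  funext g
  exact convF_Inc hv j (k.f_bi (G.wj v j)) (k'.f_bi (G.wj v j)) g

theorem fsH_mul (j : Fin 3) : fsH (k.mul k') hv j = fsH k hv j * fsH k' hv j :=
  HAlg.ext' (fs_mul k k' hv j)

/-- the product of the three components -/
noncomputable def tH : HAlg (G.U0.H v) := fsH k hv 0 * fsH k hv 1 * fsH k hv 2

theorem tH_f : (tH k hv).f =
    convF (G.U0.H v) (convF (G.U0.H v) (fs k v 0) (fs k v 1)) (fs k v 2) := rfl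

theorem bf_split : bf k v = (tH k hv).f := by
  funext g
  unfold bf
  rw [if_pos hv, tH_f]

theorem bf_inert (h : Inert C v (G.up v)) : bf k v = unitF (G.U.H v) := by
  funext g
  unfold bf
  rw [if_neg h.not_split, if_neg h.not_ram_deep, G.U_eq v h.not_ram_deep]

theorem Rr_congr_up (h : G.DL.n (G.up v) ≠ 0 → k.f (G.up v) = k'.f (G.up v)) :
    Rr k v = Rr k' v := by
  by_cases hn : G.DL.n (G.up v) = 0
  · rw [Rr_eq_T1 k hn, Rr_eq_T1 k' hn]
  · rw [Rr_eq_tfn k hn, Rr_eq_tfn k' hn, h hn]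

theorem bf_ram (h : Ram C v (G.up v))
    (h' : G.DL.n (G.up v) ≠ 0 → k.f (G.up v) = k'.f (G.up v)) : bf k v = bf k' v := by
  rw [bf_ram_eq k h, bf_ram_eq k' h, Rr_congr_up k k' h']

end comps

/-- The components of `A` and `B` at the split places commute. -/
def SCom (A B : Pure G.DL.toDatum) : Prop :=
  ∀ v (hv : Split C v (G.up v)) (i j : Fin 3), Commute (fsH A hv i) (fsH B hv j)

theorem SCom.symm {A B : Pure G.DL.toDatum} (h : SCom A B) : SCom B A :=
  fun v hv i j => (h v hv j i).symm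

theorem SCom.mul_left {A A' B : Pure G.DL.toDatum} (h : SCom A B) (h' : SCom A' B) :
    SCom (A.mul A') B := fun v hv i j => by
  rw [fsH_mul]
  exact (h v hv i j).mul_left (h' v hv i j)

theorem SCom.mul_right {A B B' : Pure G.DL.toDatum} (h : SCom A B) (h' : SCom A B') :
    SCom A (B.mul B') := fun v hv i j => by
  rw [fsH_mul]
  exact (h v hv i j).mul_right (h' v hv i j)

theorem tH_mul {A B : Pure G.DL.toDatum} (h : SCom A B) {v : Pl K} (hv : Split C v (G.up v)) :
    tH (A.mul B) hv = tH A hv * tH B hv := by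
  unfold tH
  rw [fsH_mul, fsH_mul, fsH_mul]
  exact mul3_mul3 (h v hv 1 0).symm (h v hv 2 0).symm (h v hv 2 1).symm

/-! ### commutation -/

/-! ### norms at the places above a split place -/

theorem av_wj (v : Pl K) (j : ℕ) (x : K) :
    av (G.wj v j) (algebraMap K L x) = av (G.up v) (algebraMap K L x) := by
  induction j with
  | zero => rfl
  | succ j ih =>
    rw [← ih, ← G.pl_wj_succ v j, ← av_pl C (G.wj v (j + 1)), C.σ.commutes]

theorem qv_wj (v : Pl K) (j : ℕ) : qv (G.wj v j) = qv (G.up v) := by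
  induction j with
  | zero => rfl
  | succ j ih => rw [← ih, ← G.pl_wj_succ v j, qv_pl]

section norms

variable {v : Pl K} (hv : Split C v (G.up v)) (j : ℕ)

include hv

theorem nm_wj_inc (A : Matrix (Fin 2) (Fin 2) K) :
    nm (G.wj v j) (Cub.inc (L := L) A) = nm v A := by
  unfold nm
  simp only [Cub.inc_apply, av_wj, hv.av_eq]

theorem dd_wj_Inc (g : G2 K) :
    Fermat.Agent.LT.CTree.dd (G.wj v j) (Cub.Inc g) = Fermat.Agent.LT.CTree.dd v g := by
  unfold Fermat.Agent.LT.CTree.dd
  rw [← map_inv, Cub.coe_Inc, Cub.coe_Inc, nm_wj_inc hv, nm_wj_inc hv]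

theorem dn_wj_Inc (g : G2 K) :
    Fermat.Agent.LT.CTree.dn (G.wj v j) (Cub.Inc g) = Fermat.Agent.LT.CTree.dn v g := by
  rw [Fermat.Agent.LT.CTree.dn_eq_iff, dd_wj_Inc hv, qv_wj, hv.q_eq]
  exact Fermat.Agent.LT.CTree.dd_eq_pow v g

theorem sphF_wj_Inc (a : ℕ → ℂ) (g : G2 K) : sphF (G.wj v j) a (Cub.Inc g) = sphF v a g := by
  unfold sphF
  rw [dn_wj_Inc hv]

theorem T1_wj_Inc (g : G2 K) : T1 (G.wj v j) (Cub.Inc g) = T1 v g := by
  rw [T1_eq_sphF, T1_eq_sphF, sphF_wj_Inc hv]

theorem Inc_mem_stdH_wj (g : G2 K) : Cub.Inc g ∈ stdH (G.wj v j) ↔ g ∈ stdH v := by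
  rw [← Fermat.Agent.LT.CTree.dn_eq_zero_iff, ← Fermat.Agent.LT.CTree.dn_eq_zero_iff, dn_wj_Inc hv]

theorem T1_up_Inc (g : G2 K) : T1 (G.up v) (Cub.Inc g) = T1 v g := T1_wj_Inc hv 0 g

theorem sphF_up_Inc (a : ℕ → ℂ) (g : G2 K) : sphF (G.up v) a (Cub.Inc g) = sphF v a g :=
  sphF_wj_Inc hv 0 a g

theorem Inc_mem_stdH_up (g : G2 K) : Cub.Inc g ∈ stdH (G.up v) ↔ g ∈ stdH v :=
  Inc_mem_stdH_wj hv 0 g

theorem U0_eq_stdH (h : G.DL.H (G.up v) = stdH (G.up v)) : G.U0.H v = stdH v := by
  ext g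
  rw [G.H_split v hv, h, Inc_mem_stdH_up hv]

theorem U_eq_stdH (h : G.DL.H (G.up v) = stdH (G.up v)) : G.U.H v = stdH v := by
  rw [G.U_eq v fun h' => h'.not_split hv, U0_eq_stdH hv h]

end norms

/-! ### The matching of the unit-type pure tensors -/

open Classical in
/-- the finite components of `aPure` -/
noncomputable def af (A : Pure G.DL.toDatum) (v : Pl K) : G2 K → ℂ :=
  if hv : Split C v (G.up v) then (tH A hv).f else unitF (G.U.H v)

theorem af_split (A : Pure G.DL.toDatum) {v : Pl K} (hv : Split C v (G.up v)) :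
    af A v = (tH A hv).f := by
  unfold af
  rw [dif_pos hv]

theorem af_not_split (A : Pure G.DL.toDatum) {v : Pl K} (hv : ¬ Split C v (G.up v)) :
    af A v = unitF (G.U.H v) := by
  unfold af
  rw [dif_neg hv]

theorem af_eq_bf (A : Pure G.DL.toDatum) {v : Pl K} (hv : ¬ Ram C v (G.up v)) :
    af A v = bf A v := by
  rcases G.typ v with h | h | h
  · rw [af_split A h, bf_split A h]
  · rw [af_not_split A h.not_split, bf_inert A h]
  · exact absurd h hv

/-- **The matching of a pure tensor which is a unit at the inert and at the ramified places.** -/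
noncomputable def aPure (A : Pure G.DL.toDatum) : Pure G.DK :=
  Pure.mk' (fun _ => ba A) (fun _ => ppi_ba A) (fun v => af A v)
    (fun v => by
      change BiInv (G.U.H v) (af A v)
      by_cases hv : Split C v (G.up v)
      · rw [af_split A hv, G.U_eq v fun h' => h'.not_split hv]
        exact (tH A hv).bi
      · rw [af_not_split A hv]
        exact biInv_unitF _)
    (fun v => by
      change FinS (G.U.H v) (af A v)
      by_cases hv : Split C v (G.up v)
      · rw [af_split A hv, G.U_eq v fun h' => h'.not_split hv]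
        exact (tH A hv).fin
      · rw [af_not_split A hv]
        exact finS_unitF)
    (by
      refine (G.ram_fin.union (bf_one A)).subset fun v hv => ?_
      by_contra hc
      rw [Set.mem_union, not_or] at hc
      exact hv ((af_eq_bf A hc.1).trans (not_not.mp hc.2)))

@[simp] theorem aPure_a (A : Pure G.DL.toDatum) (i : G.DK.I) : (aPure A).a i = ba A := rfl

@[simp] theorem aPure_f (A : Pure G.DL.toDatum) (v : Pl K) : (aPure A).f v = af A v := rfl

/-! ### Multiplicativity -/

theorem ba_mul (k k' : Pure G.DL.toDatum) : ba (k.mul k') = acomp (ba k) (ba k') := by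
  have e : ∀ {a b c a' b' c' : H3 → H3 → ℂ}, PPI a → PPI b → PPI c → PPI a' → PPI b' → PPI c' →
      acomp (acomp (acomp a a') (acomp b b')) (acomp c c') =
      acomp (acomp (acomp a b) c) (acomp (acomp a' b') c') := by
    intro a b c a' b' c' ha hb hc ha' hb' hc'
    have h1 : acomp (acomp a a') (acomp b b') = acomp (acomp a b) (acomp a' b') := by
      rw [acomp_assoc ha ha' (hb.acomp hb'), ← acomp_assoc ha' hb hb', acomp_comm ha' hb,
        acomp_assoc hb ha' hb', ← acomp_assoc ha hb (ha'.acomp hb')]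
    rw [h1, acomp_assoc (ha.acomp hb) (ha'.acomp hb') (hc.acomp hc'),
      ← acomp_assoc (ha'.acomp hb') hc hc', acomp_comm (ha'.acomp hb') hc,
      acomp_assoc hc (ha'.acomp hb') hc',
      ← acomp_assoc (ha.acomp hb) hc ((ha'.acomp hb').acomp hc')]
  exact e (k.ppi _) (k.ppi _) (k.ppi _) (k'.ppi _) (k'.ppi _) (k'.ppi _)

/-- `A` is a unit at the bad ramified places. -/
def BadUnit (A : Pure G.DL.toDatum) : Prop :=
  ∀ v, Ram C v (G.up v) → G.DL.n (G.up v) ≠ 0 → A.f (G.up v) = unitF (G.DL.H (G.up v))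

theorem BadUnit.mul_f_left {A B : Pure G.DL.toDatum} (hA : BadUnit A) {v : Pl K}
    (hv : Ram C v (G.up v)) (hn : G.DL.n (G.up v) ≠ 0) :
    (A.mul B).f (G.up v) = B.f (G.up v) := by
  rw [Pure.mul_f, hA v hv hn, convF_unitF_left (B.f_bi _)]

theorem BadUnit.mul_f_right {A B : Pure G.DL.toDatum} (hA : BadUnit A) {v : Pl K}
    (hv : Ram C v (G.up v)) (hn : G.DL.n (G.up v) ≠ 0) :
    (B.mul A).f (G.up v) = B.f (G.up v) := by
  rw [Pure.mul_f, hA v hv hn, convF_unitF_right (B.f_bi _)]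

theorem af_mul {A B : Pure G.DL.toDatum} (h : SCom A B) (v : Pl K) :
    af (A.mul B) v = convF (G.U.H v) (af A v) (af B v) := by
  by_cases hv : Split C v (G.up v)
  · rw [af_split _ hv, af_split _ hv, af_split _ hv, tH_mul h hv,
      G.U_eq v fun h' => h'.not_split hv, HAlg.mul_f]
  · rw [af_not_split _ hv, af_not_split _ hv, af_not_split _ hv, convF_unitF_left (biInv_unitF _)]

theorem bf_mul {A B : Pure G.DL.toDatum} (h : SCom A B) (hA : BadUnit A) (v : Pl K) :
    bf (A.mul B) v = convF (G.U.H v) (af A v) (bf B v) := by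
  rcases G.typ v with hv | hv | hv
  · rw [bf_split _ hv, af_split _ hv, bf_split _ hv, tH_mul h hv,
      G.U_eq v fun h' => h'.not_split hv, HAlg.mul_f]
  · rw [bf_inert _ hv, af_not_split _ hv.not_split, bf_inert _ hv,
      convF_unitF_left (biInv_unitF _)]
  · rw [bf_ram _ B hv (hA.mul_f_left hv), af_not_split _ hv.not_split,
      convF_unitF_left (biInv_bf B v)]

theorem aPure_mul {A B : Pure G.DL.toDatum} (h : SCom A B) :
    aPure (A.mul B) = (aPure A).mul (aPure B) := by
  refine Pure.ext' (?_ : _ = _) (?_ : _ = _)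
  · funext i
    exact ba_mul A B
  · funext v
    exact af_mul h v

/-- **Multiplicativity of the matching.** -/
theorem bPure_mul {A B : Pure G.DL.toDatum} (h : SCom A B) (hA : BadUnit A) :
    bPure (A.mul B) = (aPure A).mul (bPure B) := by
  refine Pure.ext' (?_ : _ = _) (?_ : _ = _)
  · funext i
    exact ba_mul A B
  · funext v
    exact bf_mul h hA v

theorem rad_aPure {A : Pure G.DL.toDatum} (h : ∀ i, RadK (A.a i)) (i : G.DK.I) :
    RadK ((aPure A).a i) := ((h _).acomp (h _)).acomp (h _)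

/-- **Multiplicativity of the matching**, on the other side. -/
theorem bPure_mul' {A B : Pure G.DL.toDatum} (h : SCom B A) (hA : BadUnit A) :
    bPure (B.mul A) = (bPure B).mul (aPure A) := by
  refine Pure.ext' (?_ : _ = _) (?_ : _ = _)
  · funext i
    exact ba_mul B A
  · funext v
    change bf (B.mul A) v = convF (G.U.H v) (bf B v) (af A v)
    rcases G.typ v with hv | hv | hv
    · rw [bf_split _ hv, af_split _ hv, bf_split _ hv, tH_mul h hv,
        G.U_eq v fun h' => h'.not_split hv, HAlg.mul_f]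
    · rw [bf_inert _ hv, af_not_split _ hv.not_split, bf_inert _ hv,
        convF_unitF_left (biInv_unitF _)]
    · rw [bf_ram _ B hv (hA.mul_f_right hv), af_not_split _ hv.not_split,
        convF_unitF_right (biInv_bf B v)]

/-! ### Sufficient conditions for the commutation -/

theorem fsH_eq_one {k : Pure G.DL.toDatum} {v : Pl K} (hv : Split C v (G.up v)) {j : Fin 3}
    (h : k.f (G.wj v j) = unitF (G.DL.H (G.wj v j))) : fsH k hv j = 1 :=
  HAlg.ext' (fs_eq_unitF k hv j h)

theorem SCom.of_cases {A B : Pure G.DL.toDatum}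
    (h : ∀ v, Split C v (G.up v) → G.DL.H (G.up v) = stdH (G.up v) ∨
      (∀ j : Fin 3, A.f (G.wj v j) = unitF (G.DL.H (G.wj v j))) ∨
      (∀ j : Fin 3, B.f (G.wj v j) = unitF (G.DL.H (G.wj v j)))) : SCom A B := by
  intro v hv i j
  rcases h v hv with h | h | h
  · exact commute_stdH (U0_eq_stdH hv h) _ _
  · rw [fsH_eq_one hv (h i)]
    exact Commute.one_left _
  · rw [fsH_eq_one hv (h j)]
    exact Commute.one_right _

/-! ### Congruence -/

theorem fs_congr {k k' : Pure G.DL.toDatum} {v : Pl K} (j : Fin 3)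
    (h : k.f (G.wj v j) = k'.f (G.wj v j)) : fs k v j = fs k' v j := by
  funext g
  exact congrFun h _

theorem fsH_congr {k k' : Pure G.DL.toDatum} {v : Pl K} (hv : Split C v (G.up v)) (j : Fin 3)
    (h : k.f (G.wj v j) = k'.f (G.wj v j)) : fsH k hv j = fsH k' hv j :=
  HAlg.ext' (fs_congr j h)

theorem tH_congr {k k' : Pure G.DL.toDatum} {v : Pl K} (hv : Split C v (G.up v))
    (h : ∀ j : Fin 3, k.f (G.wj v j) = k'.f (G.wj v j)) : tH k hv = tH k' hv := by
  unfold tH
  rw [fsH_congr hv 0 (h 0), fsH_congr hv 1 (h 1), fsH_congr hv 2 (h 2)]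

theorem af_congr {k k' : Pure G.DL.toDatum} {v : Pl K}
    (h : ∀ j : Fin 3, k.f (G.wj v j) = k'.f (G.wj v j)) : af k v = af k' v := by
  by_cases hv : Split C v (G.up v)
  · rw [af_split _ hv, af_split _ hv, tH_congr hv h]
  · rw [af_not_split _ hv, af_not_split _ hv]

theorem bf_congr_wj {k k' : Pure G.DL.toDatum} {v : Pl K}
    (h : ∀ j : Fin 3, k.f (G.wj v j) = k'.f (G.wj v j)) : bf k v = bf k' v := by
  by_cases hv : Ram C v (G.up v)
  · exact bf_ram k k' hv fun _ => h 0
  · rw [← af_eq_bf k hv, ← af_eq_bf k' hv, af_congr h]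

/-! ### Insertions -/

section ins

variable (k : Pure G.DL.toDatum) {v : Pl K} (hv : Split C v (G.up v)) {t : G2 L → ℂ}
  (ht : BiInv (G.DL.H (G.up v)) t) (ht' : FinS (G.DL.H (G.up v)) t)
  {s : G2 K → ℂ} (hs : BiInv (G.DK.H v) s) (hs' : FinS (G.DK.H v) s)
  (hts : ∀ g, t (Cub.Inc g) = s g)

include hv in
theorem wj_ne_up (j : Fin 3) (hj : j ≠ 0) : G.wj v j ≠ G.up v := by
  obtain ⟨n1, n2, -⟩ := aj_ne hv
  intro h
  fin_cases j
  · exact hj rfl
  · exact n1 (Subtype.ext h.symm)
  · exact n2 (Subtype.ext h.symm)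

theorem wj_ne_up_of_ne {u v : Pl K} (h : u ≠ v) (j : ℕ) : G.wj u j ≠ G.up v := by
  intro e
  apply h
  rw [← G.down_wj u j, e, G.down_up]

include hs hs' hts in
theorem tH_insL : (tH (k.insL (G.up v) ht ht') hv).f = convF (G.U.H v) s (tH k hv).f := by
  have hU : G.U.H v = G.U0.H v := G.U_eq v fun h' => h'.not_split hv
  have hs0 : BiInv (G.U0.H v) s := by rw [← hU]; exact hs
  have hs0' : FinS (G.U0.H v) s := by rw [← hU]; exact hs'
  have e0 : fsH (k.insL (G.up v) ht ht') hv 0 = ⟨s, hs0, hs0'⟩ * fsH k hv 0 := by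
    apply HAlg.ext'
    funext g
    change (k.insL (G.up v) ht ht').f (G.up v) (Cub.Inc g) =
      convF (G.U0.H v) s (fun g => k.f (G.up v) (Cub.Inc g)) g
    rw [Pure.insL_f, ← (funext hts : (fun g => t (Cub.Inc g)) = s)]
    exact convF_Inc hv 0 ht (k.f_bi _) g
  have e1 : fsH (k.insL (G.up v) ht ht') hv 1 = fsH k hv 1 :=
    fsH_congr hv 1 (k.insL_f_ne (G.up v) ht ht' (wj_ne_up hv 1 (by decide)))
  have e2 : fsH (k.insL (G.up v) ht ht') hv 2 = fsH k hv 2 :=
    fsH_congr hv 2 (k.insL_f_ne (G.up v) ht ht' (wj_ne_up hv 2 (by decide)))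
  have e3 : tH (k.insL (G.up v) ht ht') hv = ⟨s, hs0, hs0'⟩ * tH k hv := by
    unfold tH
    rw [e0, e1, e2]
    simp only [mul_assoc]
  rw [e3, hU]
  rfl

include hv hs hs' hts in
theorem af_insL_self : af (k.insL (G.up v) ht ht') v = convF (G.U.H v) s (af k v) := by
  rw [af_split _ hv, af_split _ hv, tH_insL k hv ht ht' hs hs' hts]

include hv hs hs' hts in
theorem bf_insL_self : bf (k.insL (G.up v) ht ht') v = convF (G.U.H v) s (bf k v) := by
  rw [bf_split _ hv, bf_split _ hv, tH_insL k hv ht ht' hs hs' hts]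

theorem ins_congr {u : Pl K} (h : u ≠ v) (j : Fin 3) :
    (k.insL (G.up v) ht ht').f (G.wj u j) = k.f (G.wj u j) :=
  k.insL_f_ne (G.up v) ht ht' (wj_ne_up_of_ne h j)

include hv hts in
/-- **Insertion at a split place.** -/
theorem bPure_insL : bPure (k.insL (G.up v) ht ht') = (bPure k).insL v hs hs' := by
  refine Pure.ext' (by rfl) (?_ : _ = _)
  funext u
  by_cases h : u = v
  · subst h
    rw [Pure.insL_f]
    exact bf_insL_self k hv ht ht' hs hs' hts
  · rw [Pure.insL_f_ne _ _ _ _ h]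
    exact bf_congr_wj (ins_congr k ht ht' h)

include hv hts in
/-- **Insertion at a split place.** -/
theorem aPure_insL : aPure (k.insL (G.up v) ht ht') = (aPure k).insL v hs hs' := by
  refine Pure.ext' (by rfl) (?_ : _ = _)
  funext u
  by_cases h : u = v
  · subst h
    rw [Pure.insL_f]
    exact af_insL_self k hv ht ht' hs hs' hts
  · rw [Pure.insL_f_ne _ _ _ _ h]
    exact af_congr (ins_congr k ht ht' h)

end ins

section insA

variable (k : Pure G.DL.toDatum) {b : H3 → H3 → ℂ} (hb : PPI b)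

theorem ba_insAL : ba (k.insAL G.ι hb) = acomp b (ba k) := by
  unfold ba
  rw [Pure.insAL_a, Pure.insAL_a_ne _ _ _ (G.perm_ne G.ι),
    Pure.insAL_a_ne _ _ _ (G.perm_perm_ne G.ι), acomp_assoc hb (k.ppi _) (k.ppi _),
    acomp_assoc hb ((k.ppi _).acomp (k.ppi _)) (k.ppi _)]

/-- **Insertion of an archimedean operator.** -/
theorem bPure_insAL : bPure (k.insAL G.ι hb) = (bPure k).insAL G.uK.default hb := by
  refine Pure.ext' (?_ : _ = _) (by rfl)
  funext i
  obtain rfl : i = G.uK.default := G.uK.uniq i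
  rw [Pure.insAL_a]
  exact ba_insAL k hb

/-- **Insertion of an archimedean operator.** -/
theorem aPure_insAL : aPure (k.insAL G.ι hb) = (aPure k).insAL G.uK.default hb := by
  refine Pure.ext' (?_ : _ = _) (by rfl)
  funext i
  obtain rfl : i = G.uK.default := G.uK.uniq i
  rw [Pure.insAL_a]
  exact ba_insAL k hb

end insA

end GeoDat2

end Fermat.LT
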