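import Fermat.Agent.LT.Geo.PushFinal
import Fermat.Agent.LTG.Geo.ArchHalf
import Fermat.Agent.LTG.Geo.FinPush

/-!
# LT, geometric side: the push-forward formula (E*) from local matching
-/

set_option autoImplicit false
set_option linter.unusedSectionVars false

open NumberField IsDedekindDomain Matrix MeasureTheory
open Fermat.Agent.LT.D
open scoped ENNReal

namespace Fermat.LT

variable {K L : Type} [Field K] [NumberField K] [Field L] [NumberField L] [Algebra K L]

namespace GeoDat2

variable {C : Cub K L} {G : GeoDat2 C} {k : Pure G.DL.toDatum} {γ : G2 K} {δ : G2 L}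
  {P : ∀ v, G.AL v → Yl G.U0 v}

theorem Fv_abs (v : Pl K) (y : G.AL v) : Fv k.abs v δ y = ((‖Fv k v δ y‖ : ℝ) : ℂ) := by
  unfold Fv
  rw [← nmHom_apply, MonoidHom.map_finprod _ (Set.toFinite _)]
  rfl

theorem LocGood.abs {v : Pl K} {P : G.AL v → Yl G.U0 v} (h : LocGood k v δ P) :
    LocGood k.abs v δ P where
  base := h.base
  one := by rw [Fv_abs, h.one]; simp
  uniq y hy := h.uniq y (by rw [Fv_abs] at hy; simpa using hy)

theorem finHalf (hl : ∀ v, LocMatch k v γ δ (P v)) (hla : ∀ v, LocMatch k.abs v γ δ (P v))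
    (hg : {v | ¬ LocGood k v δ (P v)}.Finite) : FinHalf k γ δ P where
  fin := fib_finite hl hg
  sum := fib_sum hl hg
  suma z := by
    have hga : {v | ¬ LocGood k.abs v δ (P v)}.Finite := hg.subset fun v hv h => hv h.abs
    rw [← fib_sum hla hga z]
    have e : ∀ y : Y G.DL.toLevel, k.abs.kerY y (δ • G.DL.σY y) =
      ((‖k.kerY y (δ • G.DL.σY y)‖ : ℝ) : ℂ) := fun y => k.abs_kerY _ _
    simp_rw [e]
    congr! 3
    simp
  eqv t ht y hy := glueY_smul hl hg t ht hy

/-- **The push-forward formula (E*).** -/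
theorem isPush (hc : Corr C γ δ) (hl : ∀ v, LocMatch k v γ δ (P v))
    (hla : ∀ v, LocMatch k.abs v γ δ (P v)) (hg : {v | ¬ LocGood k v δ (P v)}.Finite) (j : ℕ) :
    IsPush k γ δ (glueX P j) :=
  isPush_of_halves k γ δ P j (finHalf hl hla hg) (archHalf k hc j)

theorem pushFormula (G : GeoDat2 C) : PushFormula G :=
  fun _ _ _ hc _ hl hla hg => isPush hc hl hla hg 0

end GeoDat2

end Fermat.LT
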