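import Fermat.Agent.LT.Geo.NoHyp
import Fermat.Agent.LTG.Geo.Match
import Fermat.Agent.LT.A.Compare
import Fermat.Agent.LT.Geo.AvPl
import Fermat.Agent.LT.A.H3Top

/-!
# LT, geometric side: no hyperbolic, parabolic or central classes

A test kernel whose component at a place `u` with `q_u` large is supported on matrices of odd
determinant valuation only meets elliptic classes.

* `OddAt w g`, `EvenAt w g` : parity of `v_w (det g)`; `oddAt_of_dl`, `evenAt_of_dl`;
* `noHyp_of_bounds`, `noHyp_flat` : (`K`-side, any datum) `k.ker z (γ • z) ≠ 0 → Ell γ`;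
* `noHyp_tw_of_bounds`, `noHyp_tw` : (`L`-side) `k.ker x (δ • σX x) ≠ 0 → Ell (N δ)`.
-/

set_option autoImplicit false
set_option linter.unusedSectionVars false

open NumberField IsDedekindDomain Matrix
open Fermat.Agent.LT.D

namespace Fermat.LT

variable {F : Type} [Field F] [NumberField F]

section parity

variable {w : Pl F} {g h : G2 F}

end parity

namespace NoHyp

section localbounds

end localbounds

section kernels

variable {D : Datum F} {k : Pure D}

end kernels

end NoHyp

section flat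

variable {D : Datum F}

open NoHyp

end flat

section twisted

variable {K L : Type} [Field K] [NumberField K] [Field L] [NumberField L] [Algebra K L]
  {C : Cub K L}

namespace NoHyp

variable {D : TwDatum C}

end NoHyp

open NoHyp

end twisted

section bK

variable {K L : Type} [Field K] [NumberField K] [Field L] [NumberField L] [Algebra K L]
  {C : Cub K L}

namespace GeoDat2

variable {G : GeoDat2 C} {k k' : Pure G.DL.toDatum}

/-- parity of the matching function at a split place -/
theorem parAt_bf {v : Pl K} (h : Split C v (G.up v)) {b : Fin 3 → Bool}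
    (hp : ∀ (j : Fin 3) g, k.f ((((pl C).symm)^[(j : ℕ)]) (G.up v)) g ≠ 0 →
      ParAt (b j) ((((pl C).symm)^[(j : ℕ)]) (G.up v)) g) {g : G2 K} (hg : bf k v g ≠ 0) :
    ParAt (xor (xor (b 0) (b 1)) (b 2)) v g := by
  have h1 : ∀ (j : Fin 3) g, fs k v j g ≠ 0 → ParAt (b j) v g := by
    intro j g hg
    obtain ⟨e1, e2⟩ := NoHyp.split_symm h (j : ℕ)
    exact (parAt_Inc e1 e2).1 (hp j _ hg)
  unfold bf at hg
  rw [if_pos h] at hg
  exact parAt_convF (fun g hg => parAt_convF (h1 0) (h1 1) hg) (h1 2) hg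

theorem down_symm (w : Pl L) : G.down ((pl C).symm w) = G.down w := by
  have := G.down_pl ((pl C).symm w)
  rw [Equiv.apply_symm_apply] at this
  exact this.symm

theorem down_iterate (v : Pl K) (j : ℕ) : G.down (((pl C).symm)^[j] (G.up v)) = v := by
  induction j with
  | zero => exact G.down_up v
  | succ j ih => rw [Function.iterate_succ_apply', down_symm, ih]

theorem Rr_congr {v : Pl K} (h : k'.f (G.up v) = k.f (G.up v)) : Rr k' v = Rr k v := by
  funext g
  unfold Rr
  rw [h]

/-- `bf k v` only depends on the components of `k` above `v` -/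
theorem bf_congr {v : Pl K} (h : ∀ w, G.down w = v → k'.f w = k.f w) : bf k' v = bf k v := by
  have h1 : ∀ j, fs k' v j = fs k v j := by
    intro j
    funext g
    unfold fs
    rw [h _ (down_iterate v _)]
  funext g
  unfold bf
  rw [h1, h1, h1, Rr_congr (h _ (G.down_up v))]

/-- **No hyperbolic classes for the matching function.** `kK`, `kK'` are the pure tensors with
components `bf k`, `ba k` (resp. `bf k'`, `ba k'`); `k'` is any modification of `k` above `u`, odd
at an odd number of places above `u`. -/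
theorem noHyp_bPure (k : Pure G.DL.toDatum) (kK : Pure G.DK) (hf : ∀ v, kK.f v = bf k v)
    (ha : ∀ i, kK.a i = ba k) : ∃ B : ℝ, ∀ u : Pl K, B < qv u → Split C u (G.up u) →
    ∀ (k' : Pure G.DL.toDatum) (kK' : Pure G.DK), (∀ v, kK'.f v = bf k' v) →
    (∀ i, kK'.a i = ba k') → (∀ i, k'.a i = k.a i) → (∀ w, G.down w ≠ u → k'.f w = k.f w) →
    ∀ b : Fin 3 → Bool, xor (xor (b 0) (b 1)) (b 2) = true →
    (∀ (j : Fin 3) g, k'.f ((((pl C).symm)^[(j : ℕ)]) (G.up u)) g ≠ 0 →
      ParAt (b j) ((((pl C).symm)^[(j : ℕ)]) (G.up u)) g) →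
    ∀ γ : G2 K, (∃ z : X G.DK, kK'.ker z (γ • z) ≠ 0) → Ell γ.1 := by
  obtain ⟨B, hB⟩ := noHyp_flat kK
  refine ⟨B, fun u hu hs k' kK' hf' ha' h1 h2 b hb hp γ hz => hB u hu kK' ?_ ?_ ?_ γ hz⟩
  · intro i P Q h
    rw [ha] 
    rw [ha'] at h
    have : ba k' = ba k := by
      unfold ba
      rw [h1, h1, h1]
    rwa [this] at h
  · intro v hv g h
    rw [hf]
    rw [hf', bf_congr (k := k) (k' := k') (fun w hw => h2 w (by rw [hw]; exact hv))] at h
    exact h
  · intro g h
    rw [hf'] at h
    have := parAt_bf hs hp h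
    rw [hb] at this
    exact this

/-- `k` is odd at the chosen place above `u`, even at the two others -/
structure OddTest (k : Pure G.DL.toDatum) (u : Pl K) : Prop where
  odd : ∀ g, k.f (G.up u) g ≠ 0 → OddAt (G.up u) g
  even : ∀ w, G.down w = u → w ≠ G.up u → ∀ g, k.f w g ≠ 0 → EvenAt w g

/-- **No hyperbolic classes**, combined form for a family. -/
theorem exists_noHyp_const (k0 : Pure G.DL.toDatum) (kK0 : Pure G.DK)
    (hf0 : ∀ v, kK0.f v = bf k0 v) (ha0 : ∀ i, kK0.a i = ba k0) : ∃ B : ℝ, ∀ u : Pl K,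
    Split C u (G.up u) → B < qv u → ∀ k : Pure G.DL.toDatum, (∀ i, k.a i = k0.a i) →
    (∀ w, G.down w ≠ u → k.f w = k0.f w) → OddTest k u →
    (∀ δ : G2 L, (∃ x : X G.DL.toDatum, k.ker x (δ • G.DL.σX x) ≠ 0) → Ell (C.N δ).1) ∧
    ∀ kK : Pure G.DK, (∀ v, kK.f v = bf k v) → (∀ i, kK.a i = ba k) →
      ∀ γ : G2 K, (∃ z : X G.DK, kK.ker z (γ • z) ≠ 0) → Ell γ.1 := by
  obtain ⟨B₁, h₁⟩ := noHyp_tw (D := G.DL) k0
  obtain ⟨B₂, h₂⟩ := noHyp_bPure k0 kK0 hf0 ha0
  refine ⟨max B₁ B₂, fun u hs hu k ha hf ho => ?_⟩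
  have hne1 : pl C (G.up u) ≠ G.up u := hs.ne
  have hp3 : pl C (pl C (pl C (G.up u))) = G.up u := TwDatum.pl_cube _
  have hne2 : pl C (pl C (G.up u)) ≠ G.up u := by
    intro h
    rw [h] at hp3
    exact hne1 hp3
  have hd1 : G.down (pl C (G.up u)) = u := by rw [G.down_pl, G.down_up]
  have hd2 : G.down (pl C (pl C (G.up u))) = u := by rw [G.down_pl, hd1]
  constructor
  · intro δ hx
    refine h₁ (G.up u) ?_ k ?_ ?_ ho.odd (ho.even _ hd1 hne1) (ho.even _ hd2 hne2) δ hx
    · rw [hs.q_eq]; exact (le_max_left _ _).trans_lt hu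
    · intro i P Q h; rwa [ha] at h
    · intro w h0 h1 h2 g hg
      rw [hf w] at hg
      · exact hg
      · intro hw
        rcases G.up_down w with h | h | h
        · exact h0 (by rw [h, hw])
        · exact h1 (by rw [h, hw])
        · exact h2 (by rw [h, hw])
  · intro kK hf' ha' γ hz
    have hs1 : (pl C).symm (G.up u) = pl C (pl C (G.up u)) := by
      rw [Equiv.symm_apply_eq, hp3]
    have hs2 : (pl C).symm (pl C (pl C (G.up u))) = pl C (G.up u) := Equiv.symm_apply_apply _ _
    refine h₂ u ((le_max_right _ _).trans_lt hu) hs k kK hf' ha' ha hf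
      (fun j => decide (j = 0)) (by decide) ?_ γ hz
    intro j g hg
    fin_cases j
    · exact ho.odd g hg
    · change k.f ((pl C).symm (G.up u)) g ≠ 0 at hg
      change EvenAt ((pl C).symm (G.up u)) g
      rw [hs1] at hg ⊢
      exact ho.even _ hd2 hne2 g hg
    · change k.f ((pl C).symm ((pl C).symm (G.up u))) g ≠ 0 at hg
      change EvenAt ((pl C).symm ((pl C).symm (G.up u))) g
      rw [hs1, hs2] at hg ⊢
      exact ho.even _ hd1 hne1 g hg

end GeoDat2

end bK

end Fermat.LT
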