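import Fermat.Agent.LTG.Geo.LocInert
import Fermat.Agent.LTG.RB.Count

/-!
# LTG, geometric side: local matching at the bad ramified places

* `GeoDat2.tfn_eq_shf`, `GeoDat2.Rr_bad`;
* `GeoDat2.locMatch_bad` : the local matching, given `RBMatch`.
(helper54)
-/

set_option autoImplicit false
set_option linter.unusedSectionVars false

open NumberField IsDedekindDomain Matrix
open Fermat.Agent.LT.D

namespace Fermat.LT.GeoDat2

variable {K L : Type} [Field K] [NumberField K] [Field L] [NumberField L] [Algebra K L]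
variable {C : Cub K L} {G : GeoDat2 C}

theorem tfn_eq_shf {F : Type} [Field F] [NumberField F] (w : Pl F) (M : ℕ) (a b : ℂ) :
    tfn (HT w M) (HB w M) a b = shf w M a b := rfl

theorem un_one_notMem_HT {F : Type} [Field F] [NumberField F] (w : Pl F) (M : ℕ) :
    (un 1 : G2 F) ∉ HT w M := by
  intro h
  have h1 := h.2
  have h2 : (un 1 : G2 F).1 0 1 = 1 := by rw [Fermat.Agent.LT.CTree.un_val]; simp
  rw [h2, map_one] at h1
  exact absurd h1 (not_lt.mpr (un_mem_intGL w (by rw [map_one])).1)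

theorem tfn_one {F : Type} [Field F] [NumberField F] (w : Pl F) (M : ℕ) (a b : ℂ) :
    tfn (HT w M) (HB w M) a b 1 = a := shf_HT (one_mem _)

theorem tfn_un {F : Type} [Field F] [NumberField F] (w : Pl F) (M : ℕ) (a b : ℂ) :
    tfn (HT w M) (HB w M) a b (un 1) = b :=
  shf_HB (un_mem_HB w M (by rw [map_one])) (un_one_notMem_HT w M)

theorem Rr_good {v : Pl K} (hn : G.DL.n (G.up v) = 0) (k : Pure G.DL.toDatum) :
    Rr k v = T1 v := by
  funext g
  unfold Rr
  rw [if_pos hn]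

theorem Rr_bad {v : Pl K} (hn : G.DL.n (G.up v) ≠ 0) {k : Pure G.DL.toDatum} {a b : ℂ}
    (h : k.f (G.up v) = tfn (HT (G.up v) (3 * G.mb)) (HB (G.up v) (3 * G.mb)) a b) :
    Rr k v = tfn (HT v G.mb) (HB v G.mb) (3 * a + 6 * b) b := by
  funext g
  unfold Rr
  rw [if_neg hn, h, tfn_one, tfn_un]

theorem phi_good {v : Pl K} (hn : G.DL.n (G.up v) = 0) (x : K) :
    G.phi v x = phiR C v (G.nr v) x := if_pos hn

theorem phi_bad {v : Pl K} (hn : G.DL.n (G.up v) ≠ 0) (x : K) : G.phi v x = phiB v x :=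
  if_neg hn

theorem tw_mk {v : Pl K} (hv : Ram C v (G.up v)) (δ g : G2 L) :
    δ • G.DL.σl hv.fix (g : Yl G.DL.toLevel (G.up v)) =
      ((δ * C.S g : G2 L) : Yl G.DL.toLevel (G.up v)) := by
  rw [TwDatum.σl_mk]
  rfl

/-- **Local matching at a bad ramified place.** -/
theorem locMatch_bad {γ : G2 K} {δ : G2 L} (hc : Corr C γ δ) {v : Pl K} (hv : Ram C v (G.up v))
    (hn : G.DL.n (G.up v) ≠ 0) {d : Fin 3 → Lˣ} (hd : RBd C (G.up v) d)
    (hi : RBInj v (G.up v) G.mb d) {t : G2 L} (hM : RBMatch C v (G.up v) G.mb γ δ t d) :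
    ∃ P : G.AL v → Yl G.U0 v, ∀ k : Pure G.DL.toDatum, Good k → LocMatch k v γ δ P := by
  classical
  obtain ⟨hH, hH', h4⟩ := G.H_bad v hv hn
  obtain ⟨P, hP1, hP2, hP3⟩ := rb_count hv hd hi hc hM hH hH'
    (fun y => δ • G.DL.σl hv.fix y) (tw_mk hv δ)
  refine ⟨fun y => P (y (G.ix v)), fun k hk => ?_⟩
  obtain ⟨a, b, hab⟩ := hk.bad v hv hn
  have hF : ∀ y : G.AL v, Fv k v δ y =
      kw (G.DL.H (G.up v)) (shf (G.up v) (3 * G.mb) a b) (y (G.ix v))
        (δ • G.DL.σl hv.fix (y (G.ix v))) := by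
    intro y
    rw [Fv_fix hv.fix, hab, tfn_eq_shf]
  have hG : ∀ z : Yl G.U0 v, Gv k v γ z = (if av v (td γ) < 1 then 1 else 0) *
      kw (G.U0.H v) (shf v G.mb (a + 2 * (a + ((qv v : ℂ) - 1) * b)) b) z (γ • z) := by
    intro z
    unfold Gv
    rw [if_neg (fun hs : Split C v (G.up v) => hs.ne hv.fix), if_pos hv, Rr_bad hn hab,
      phi_bad hn, phiB, tfn_eq_shf, h4]
    congr 3
    push_cast
    ring
  -- the bijection
  have hbij : ∀ z, Set.BijOn (fun y : G.AL v => y (G.ix v))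
      {y | P (y (G.ix v)) = z ∧ Fv k v δ y ≠ 0}
      {y | P y = z ∧ kw (G.DL.H (G.up v)) (shf (G.up v) (3 * G.mb) a b) y
        (δ • G.DL.σl hv.fix y) ≠ 0} := by
    intro z
    refine ⟨?_, ?_, ?_⟩
    · rintro y ⟨h1, h2⟩
      refine ⟨h1, ?_⟩
      rw [hF] at h2
      exact h2
    · intro y _ y' _ h
      exact AL_ext hv.fix h
    · rintro y ⟨h1, h2⟩
      have hs := down_subsingleton (G := G) hv.fix
      have hU : ∃ y' : G.AL v, y' (G.ix v) = y := by
        refine ⟨fun w => by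
          have : w = G.ix v := hs.elim _ _
          exact this ▸ y, rfl⟩
      obtain ⟨y', hy'⟩ := hU
      refine ⟨y', ⟨?_, ?_⟩, hy'⟩
      · rw [hy', h1]
      · rw [hF, hy']
        exact h2
  refine ⟨?_, ?_, ?_⟩
  · intro z
    exact (hbij z).finite_iff_finite.mpr (hP1 a b z)
  · intro z
    rw [hG, ← hP2 a b z]
    apply finsum_mem_eq_of_bijOn _ (hbij z)
    rintro y ⟨-, h2⟩
    exact hF y
  · intro s hs y hy
    rw [hF] at hy
    exact hP3 s hs a b _ hy

end Fermat.LT.GeoDat2
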