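import Fermat.Agent.LT.Geo.BMulFam
import Fermat.Agent.LTG.G.Family
import Fermat.Agent.LTG.Geo.BMul

/-!
# The matching and the family of test operators (LT, PMUL)

* `bPure_insLL : bPure (insLL l k) = insKL l (bPure k)`, `aPure_insLL`;
* `SCom.insLL`;
* the same for formal finite sums `PS`.
-/

set_option autoImplicit false
set_option linter.unusedSectionVars false

open NumberField IsDedekindDomain Matrix MeasureTheory
open Fermat.Agent.LT.D

namespace Fermat.LT

variable {K L : Type} [Field K] [NumberField K] [Field L] [NumberField L] [Algebra K L]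

namespace GeoDat2

variable {C : Cub K L} {G : GeoDat2 C}

theorem bPure_ins1L (s : G.Idx) (k : Pure G.DL.toDatum) :
    bPure (ins1L s k) = ins1K s (bPure k) := by
  rcases s with v | g
  · exact bPure_insL k v.2.1 (biT G v) (fiT G v) (biTK G v) (fiTK G v) (T1_up_Inc v.2.1)
  · exact bPure_insAL k (radK_ppi g.2.1)

theorem aPure_ins1L (s : G.Idx) (k : Pure G.DL.toDatum) :
    aPure (ins1L s k) = ins1K s (aPure k) := by
  rcases s with v | g
  · exact aPure_insL k v.2.1 (biT G v) (fiT G v) (biTK G v) (fiTK G v) (T1_up_Inc v.2.1)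
  · exact aPure_insAL k (radK_ppi g.2.1)

/-- **The matching and insertions.** -/
theorem bPure_insLL (l : List G.Idx) (k : Pure G.DL.toDatum) :
    bPure (insLL l k) = insKL l (bPure k) := by
  induction l with
  | nil => rfl
  | cons s l ih => rw [insLL_cons, insKL_cons, bPure_ins1L, ih]

/-- **The matching and insertions.** -/
theorem aPure_insLL (l : List G.Idx) (k : Pure G.DL.toDatum) :
    aPure (insLL l k) = insKL l (aPure k) := by
  induction l with
  | nil => rfl
  | cons s l ih => rw [insLL_cons, insKL_cons, aPure_ins1L, ih]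

theorem SCom.ins1L {A B : Pure G.DL.toDatum} (h : SCom A B) (s : G.Idx) : SCom (ins1L s A) B := by
  intro v hv i j
  rcases s with v' | g
  · by_cases hvv : v = v'.1
    · subst hvv
      exact commute_stdH (U0_eq_stdH hv v'.2.2.1) _ _
    · have e : fsH (GeoDat2.ins1L (.inl v') A) hv i = fsH A hv i :=
        fsH_congr hv i (A.insL_f_ne _ (biT G v') (fiT G v') (wj_ne_up_of_ne hvv i))
      rw [e]
      exact h v hv i j
  · exact h v hv i j

theorem SCom.insLL {A B : Pure G.DL.toDatum} (h : SCom A B) (l : List G.Idx) :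
    SCom (insLL l A) B := by
  induction l with
  | nil => exact h
  | cons s l ih => exact ih.ins1L s

end GeoDat2

namespace PS

variable {F F' : Type} [Field F] [NumberField F] [Field F'] [NumberField F'] {D : Datum F}
  {D' : Datum F'}

end PS

namespace GeoDat2

variable {C : Cub K L} {G : GeoDat2 C}

theorem UnitIR.badUnit {A : Pure G.DL.toDatum} (h : UnitIR A) : BadUnit A :=
  fun v hv _ => h.ram v hv

/-- **Multiplicativity for formal sums.** -/
theorem bPS_mul {P Q : LT.PS G.DL.toDatum} (h : ∀ i j, SCom (P.k i) (Q.k j))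
    (hA : ∀ i, BadUnit (P.k i)) :
    (P.mul Q).map bPure = (P.map aPure).mul (Q.map bPure) :=
  LT.PS.map_mul_of fun i j => bPure_mul (h i j) (hA i)

/-- **Multiplicativity for formal sums.** -/
theorem aPS_mul {P Q : LT.PS G.DL.toDatum} (h : ∀ i j, SCom (P.k i) (Q.k j)) :
    (P.mul Q).map aPure = (P.map aPure).mul (Q.map aPure) :=
  LT.PS.map_mul_of fun i j => aPure_mul (h i j)

/-- **Insertions for formal sums.** -/
theorem bPS_insLL (l : List G.Idx) (P : LT.PS G.DL.toDatum) :
    (P.map (insLL l)).map bPure = (P.map bPure).map (insKL l) :=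
  LT.PS.map_congr (P := P) (f := bPure ∘ GeoDat2.insLL l) (g := insKL l ∘ bPure)
    fun _ => bPure_insLL l _

/-- **Insertions for formal sums.** -/
theorem aPS_insLL (l : List G.Idx) (P : LT.PS G.DL.toDatum) :
    (P.map (insLL l)).map aPure = (P.map aPure).map (insKL l) :=
  LT.PS.map_congr (P := P) (f := aPure ∘ GeoDat2.insLL l) (g := insKL l ∘ aPure)
    fun _ => aPure_insLL l _

end GeoDat2

end Fermat.LT
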