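import Fermat.Agent.LT.Geo.ClassId
import Fermat.Agent.LTG.Geo.Match
import Fermat.Agent.LT.Geo.Cpt
import Fermat.Agent.LT.Geo.Unfold
import Fermat.Agent.LT.Geo.Orbit
import Fermat.Agent.LT.F.ClassAbs

/-!
# LT, geometric side: identity of the contributions of an elliptic class

* `class_lintegral_ne_top` : the contribution of one elliptic class converges absolutely;
* `IsDeep` : relation between the kernel on the deep level and the flat weight;
* `class_id` : the contributions of an elliptic class on the two sides agree.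
-/

set_option autoImplicit false
set_option linter.unusedSectionVars false

open NumberField IsDedekindDomain Matrix MeasureTheory Set
open Fermat.Agent.LT.D hiding pmk_mul pmk_inv pmk_one pmk_surj pmk_eq_iff comp pmk PG
open Fermat.Agent.LT.B Fermat.Agent.LT.F
open scoped ENNReal

namespace Fermat.LT.GeoDat2
export Fermat.LT.GeoDatum (smulInvX)
end Fermat.LT.GeoDat2

namespace Fermat.LT

section conv

variable {F : Type} [Field F] [NumberField F] {D : Datum F}

end conv

section cls

variable {K : Type} [Field K] [NumberField K] {D : Datum K}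

end cls

section classid

variable {K L : Type} [Field K] [NumberField K] [Field L] [NumberField L] [Algebra K L]

namespace GeoDat2

variable {C : Cub K L} {G : GeoDat2 C}

/-- relation between a kernel on the deep level and the flat weight -/
structure IsDeep (k : Pure G.DL.toDatum) (kK : Pure G.DK) (π : X G.DK → X G.DK0) (N : ℕ) :
    Prop where
  N_ne : N ≠ 0
  meas : Measurable π
  smul : ∀ (g : PG K) x, π (g • x) = g • π x
  map : (volume : Measure (X G.DK)).map π = (N : ℝ≥0∞) • (volume : Measure (X G.DK0))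
  ker : ∀ (γ : G2 K) x, kK.ker x (γ • x) = (N : ℂ)⁻¹ * flatW k γ (π x)
  measW : ∀ γ : G2 K, Measurable fun z : X G.DK0 => flatW k γ z

variable {k : Pure G.DL.toDatum} {kK kKa : Pure G.DK} {π : X G.DK → X G.DK0} {N : ℕ}

theorem IsDeep.lintegral (hD : IsDeep k kK π N) (γ : G2 K) {Φ : X G.DK0 → ℝ≥0∞}
    (hΦ : Measurable Φ) :
    ∫⁻ x, Φ (π x) * ‖kK.ker x (γ • x)‖ₑ = ∫⁻ z, Φ z * ‖flatW k γ z‖ₑ := by
  have h1 : ∀ x, Φ (π x) * ‖kK.ker x (γ • x)‖ₑ =
      (fun z => (N : ℝ≥0∞)⁻¹ * (Φ z * ‖flatW k γ z‖ₑ)) (π x) := by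
    intro x
    have hN : ‖((N : ℂ))⁻¹‖ₑ = (N : ℝ≥0∞)⁻¹ := by
      rw [enorm_inv (by exact_mod_cast hD.N_ne)]
      congr 1
      rw [← ofReal_norm, Complex.norm_natCast, ENNReal.ofReal_natCast]
    beta_reduce
    rw [hD.ker, enorm_mul, hN]
    ring
  have hm : Measurable (fun z => Φ z * ‖flatW k γ z‖ₑ) := hΦ.mul (hD.measW γ).enorm
  simp_rw [h1]
  rw [← lintegral_map (hm.const_mul _) hD.meas, hD.map, lintegral_smul_measure,
    lintegral_const_mul _ hm, smul_eq_mul, ← mul_assoc, ENNReal.mul_inv_cancel, one_mul]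
  · exact_mod_cast hD.N_ne
  · exact ENNReal.natCast_ne_top _

theorem IsDeep.integral (hD : IsDeep k kK π N) (γ : G2 K) {Φ : X G.DK0 → ℝ}
    (hΦ : Measurable Φ) :
    ∫ x, Φ (π x) • kK.ker x (γ • x) = ∫ z, Φ z • flatW k γ z := by
  have h1 : ∀ x, Φ (π x) • kK.ker x (γ • x) =
      (fun z => (N : ℂ)⁻¹ * (Φ z • flatW k γ z)) (π x) := by
    intro x
    beta_reduce
    rw [hD.ker, Complex.real_smul, Complex.real_smul]
    ring
  have hm : Measurable (fun z => Φ z • flatW k γ z) := hΦ.smul (hD.measW γ)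
  simp_rw [h1]
  rw [← integral_map hD.meas.aemeasurable (hm.const_mul _).aestronglyMeasurable, hD.map,
    integral_smul_measure, integral_const_mul, ENNReal.toReal_natCast, Complex.real_smul,
    ← mul_assoc, Complex.ofReal_natCast, mul_inv_cancel₀, one_mul]
  exact_mod_cast hD.N_ne

/-- **Identity of the contributions of an elliptic class.** -/
theorem class_id (hD : IsDeep k kK π N) (hDa : IsDeep k.abs kKa π N) (c : ClsE C)
    {P : X G.DL.toDatum → X G.DK0} (hP : IsPush k c.1.rep c.δ P) :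
    ∃ (w : X G.DL.toDatum → ℝ≥0∞) (w' : X G.DK → ℝ≥0∞),
      IsWeight ((Tc c.1.rep).map (Cub.pI (L := L))) w ∧ IsWeight (Tc c.1.rep) w' ∧
      ∫ x, (w x).toReal • k.ker x (c.δ • G.DL.σX x) =
        ∫ x, (w' x).toReal • kK.ker x (c.1.rep • x) := by
  set γ : G2 K := c.1.rep with hγ
  obtain ⟨wA, hwA⟩ := exists_isWeight_sub G.DL.toDatum ((Tc γ).map (Cub.pI (L := L)))
  obtain ⟨w0, hw0⟩ := exists_isWeight_sub G.DK0 (Tc γ)
  have hw' : IsWeight (Tc γ) (fun x : X G.DK => w0 (π x)) :=
    Fermat.Agent.LT.F.IsWeight.comp hw0 hD.meas fun t x => hD.smul t x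
  refine ⟨wA, fun x => w0 (π x), hwA, hw', ?_⟩
  rw [hD.integral γ hw0.meas.ennreal_toReal]
  -- integrability of the flat weight
  have hfin : ∫⁻ z, w0 z * ‖flatW k.abs γ z‖ₑ ≠ ∞ := by
    rw [← hDa.lintegral γ hw0.meas]
    exact class_lintegral_ne_top kKa c.ell hw'
  have hint : Integrable (fun z => flatW k.abs γ z * (((w0 z).toReal : ℝ) : ℂ)) := by
    refine ⟨((hDa.measW γ).mul
      (Complex.measurable_ofReal.comp hw0.meas.ennreal_toReal)).aestronglyMeasurable, ?_⟩
    unfold HasFiniteIntegral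
    refine lt_of_eq_of_lt (lintegral_congr fun z => ?_) hfin.lt_top
    rw [enorm_mul, mul_comm]
    congr 1
    rw [← ofReal_norm, Complex.norm_real, Real.norm_of_nonneg ENNReal.toReal_nonneg,
      ENNReal.ofReal_toReal (hw0.ne_top z)]
  -- the action of the torus on the `L`-side
  let _ : MulAction (Tc γ) (X G.DL.toDatum) :=
    MulAction.compHom _ ((Cub.pI (L := L)).comp (Tc γ).subtype)
  have hact : ∀ (t : Tc γ) (x : X G.DL.toDatum), t • x = Cub.pI (L := L) (t : PG K) • x :=
    fun _ _ => rfl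
  have _ : MeasurableConstSMul (Tc γ) (X G.DL.toDatum) :=
    ⟨fun t => measurable_const_smul (Cub.pI (L := L) (t : PG K))⟩
  have _ : SMulInvariantMeasure (Tc γ) (X G.DL.toDatum) volume :=
    ⟨fun t s hs => measure_preimage_smul (μ := (volume : Measure (X G.DL.toDatum)))
      (Cub.pI (L := L) (t : PG K)) s⟩
  have hinvK : SMulInvariantMeasure (PG K) (X G.DK0) volume := smulInvX G.DK0
  have _ : SMulInvariantMeasure (Tc γ) (X G.DK0) volume :=
    ⟨fun t s hs => hinvK.measure_preimage_smul (t : PG K) hs⟩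
  have hwA' : IsWeight (Tc γ) wA := by
    obtain ⟨h1, h2⟩ := (isWeight_map_iff Cub.pI_injective).mp hwA
    exact ⟨h1, h2⟩
  have hmκ : Measurable fun x : X G.DL.toDatum => k.ker x (c.δ • G.DL.σX x) :=
    (G.DL.continuous_ker_tw k (pmk c.δ)).measurable
  refine class_ell (Γ := Tc γ) (μ := (volume : Measure (X G.DL.toDatum)))
    (ν := (volume : Measure (X G.DK0))) hwA' hw0 hP.meas hmκ ?_ ?_
    (κB' := flatW k.abs γ) (fun Φ hΦ hi => (hP.push Φ hΦ hi).2) hint
  · intro t x
    have h1 := (c.twCent (Cub.pI (L := L) (t : PG K))⁻¹).mpr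
      ⟨(t : PG K)⁻¹, inv_mem (Tc_le_Zc _ t.2), map_inv _ _⟩
    rw [inv_inv, map_inv] at h1
    have h2 := G.DL.ker_tw_conj k (Cub.pI (L := L) (t : PG K)) (pmk c.δ) x
    rw [h1] at h2
    exact h2
  · intro t x hx
    obtain ⟨t', ht', he⟩ := mem_Tc.mp t.2
    have h1 := hP.eqv t' ht' x hx
    have e1 : t • x = (Cub.Inc t' : G2 L) • x := by
      rw [hact, ← he]; rfl
    have e2 : t • P x = t' • P x := by
      change (t : PG K) • P x = _
      rw [← he]; rfl
    rw [e1, e2]
    exact h1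

end GeoDat2

end classid

end Fermat.LT
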