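import Fermat.Agent.LT.Geo.Main
import Fermat.Agent.LTG.Geo.ClassId
import Fermat.Agent.LTG.Geo.Deep
import Fermat.Agent.LTG.Geo.LocInert
import Fermat.Agent.LTG.Geo.LocSplit
import Fermat.Agent.LTG.Geo.NoHyp

/-!
# LT, geometric side: the identity of the geometric sides (GEO THEOREM)

For a good pure tensor `k` on `L` (unit at inert places, `T_w` at ramified places) all of whose
contributing classes are elliptic:

`∫_{PGL₂(L)\X_L} K_k(x, σ x) dx = ∫_{PGL₂(K)\X_K} K_{b(k)}(x, x) dx`.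
-/

set_option autoImplicit false
set_option linter.unusedSectionVars false

open NumberField IsDedekindDomain Matrix MeasureTheory Set
open Fermat.Agent.LT.D hiding pmk_mul pmk_inv pmk_one pmk_surj pmk_eq_iff comp pmk PG
open Fermat.Agent.LT.B Fermat.Agent.LT.F
open scoped ENNReal

namespace Fermat.LT.GeoDat2
export Fermat.LT.GeoDatum (integral_autK kerY_comp_ne_zero)
end Fermat.LT.GeoDat2

namespace Fermat.LT

variable {K L : Type} [Field K] [NumberField K] [Field L] [NumberField L] [Algebra K L]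

namespace GeoDat2

variable {C : Cub K L} {G : GeoDat2 C}

theorem isDeep (k : Pure G.DL.toDatum) : IsDeep k (bPure k) G.piX G.cR where
  N_ne := cR_ne_zero
  meas := measurable_piX
  smul := piX_smul_pg
  map := map_piX
  ker γ x := bPure_ker_smul k γ x
  measW γ := measurable_flatW k γ

/-- **(CL3)**, statement: a regular class of `PGL₂(K)` which is locally contributing everywhere is
a norm. -/
def Norms (G : GeoDat2 C) : Prop :=
  ∀ γ : G2 K, Disc γ.1 →
    (∀ v, Inert C v (G.up v) → ∃ g : G2 K, g⁻¹ * γ * g ∈ stdH v) →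
    (∀ v, Ram C v (G.up v) → (G.DL.n (G.up v) = 0 →
      (∃ g : G2 K, nm v (g⁻¹ * γ * g).1 * nm v ((g⁻¹ * γ * g)⁻¹).1 = qv v)) ∧
      G.phi v (td γ) ≠ 0) →
    ∃ δ : G2 L, Corr C γ δ

theorem exists_corr_of_contrib (hN : Norms G) (k : Pure G.DL.toDatum) {γ : G2 K}
    (hγ : Disc γ.1) (hx : ∃ z : X G.DK, (bPure k).ker z (γ • z) ≠ 0) :
    ∃ δ : G2 L, Corr C γ δ := by
  obtain ⟨z, hz⟩ := hx
  refine hN γ hγ (fun v hv => ?_) (fun v hv => ?_)
  · obtain ⟨g, hg⟩ := kerY_comp_ne_zero hz v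
    refine ⟨g, ?_⟩
    rw [bPure_f, bf, if_neg hv.not_split, if_neg hv.not_ram_deep, unitF] at hg
    have h1 : g⁻¹ * γ * g ∈ G.U0.H v := by
      by_contra hc
      exact hg (if_neg hc)
    rwa [(G.H_inert v hv).2] at h1
  · obtain ⟨g, hg⟩ := kerY_comp_ne_zero hz v
    rw [bPure_f, bf, if_neg hv.not_split, if_pos hv] at hg
    have h1 : Rr k v (g⁻¹ * γ * g) * G.phi v (td (g⁻¹ * γ * g)) ≠ 0 :=
      right_ne_zero_of_mul hg
    refine ⟨fun hn => ⟨g, dl_of_T1 v ?_⟩, ?_⟩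
    · have h3 := left_ne_zero_of_mul h1
      rwa [Rr, if_pos hn] at h3
    have h2 := right_ne_zero_of_mul h1
    rwa [td_conj] at h2

/-- **GEO THEOREM** -/
theorem geo_identity (hR : ∀ (γ : G2 K) (δ : G2 L), Corr C γ δ → LocRam G γ δ) (hN : Norms G)
    {k : Pure G.DL.toDatum} (hk : Good k)
    (hL : ∀ δ : G2 L, (∃ x : X G.DL.toDatum, k.ker x (δ • G.DL.σX x) ≠ 0) → Ell (C.N δ).1)
    (hK : ∀ γ : G2 K, (∃ z : X G.DK, (bPure k).ker z (γ • z) ≠ 0) → Ell γ.1)
    {wL : X G.DL.toDatum → ℝ≥0∞} (hwL : IsWeight (PG L) wL)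
    {wK : X G.DK → ℝ≥0∞} (hwK : IsWeight (PG K) wK) :
    ∫ x, (wL x).toReal • autK k.ker x (G.DL.σX x) =
      ∫ x, (wK x).toReal • autK (bPure k).ker x x := by
  refine unfold_eq G.DL (κ := k.ker) (κ' := (bPure k).ker) (fun g x y => k.ker_smul_pg g x y)
    (fun δ => (G.DL.continuous_ker_tw k δ).measurable) (fun δ x hx => hL δ ⟨x, hx⟩) hwL
    (G.DL.lintegral_ne_top k hL hwL) (fun g x y => (bPure k).ker_smul_pg g x y)
    (fun γ => ((bPure k).continuous_ker.comp
      (continuous_id.prodMk (continuous_id.const_smul γ))).measurable)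
    (fun γ x hx => hK γ ⟨x, hx⟩)
    (fun γ hγ hx => exists_corr_of_contrib hN k (Orb.Ell.disc hγ) hx) hwK
    ((bPure k).lintegral_ne_top hK hwK) fun c => ?_
  obtain ⟨P, hP⟩ := exists_push_of G c.corr (locInert G c.corr) (locSplit G c.corr)
    (hR _ _ c.corr)
  exact class_id (isDeep k) (isDeep k.abs) c (hP k hk)

/-- **GEO THEOREM** for test functions which are odd at a large split place. -/
theorem exists_geo_identity (hR : ∀ (γ : G2 K) (δ : G2 L), Corr C γ δ → LocRam G γ δ)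
    (hN : Norms G) (k0 : Pure G.DL.toDatum) :
    ∃ B : ℝ, ∀ u : Pl K, Split C u (G.up u) → B < qv u →
      ∀ k : Pure G.DL.toDatum, (∀ i, k.a i = k0.a i) → (∀ w, G.down w ≠ u → k.f w = k0.f w) →
        OddTest k u → Good k →
        ∀ {wL : X G.DL.toDatum → ℝ≥0∞} {wK : X G.DK → ℝ≥0∞},
        IsWeight (PG L) wL → IsWeight (PG K) wK →
        ∫ x, (wL x).toReal • autK k.ker x (G.DL.σX x) =
          ∫ x, (wK x).toReal • autK (bPure k).ker x x := by
  obtain ⟨B, hB⟩ := exists_noHyp_const k0 (bPure k0) (fun _ => rfl) (fun _ => rfl)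
  refine ⟨B, fun u hu hBu k ha hf ho hk wL wK hwL hwK => ?_⟩
  obtain ⟨h1, h2⟩ := hB u hu hBu k ha hf ho
  exact geo_identity hR hN hk h1 (h2 (bPure k) (fun _ => rfl) (fun _ => rfl)) hwL hwK

/-- integrals over the quotient in terms of weights, twisted case -/
theorem integral_autK_tw (k : Pure G.DL.toDatum) {wL : X G.DL.toDatum → ℝ≥0∞}
    (hwL : IsWeight (PG L) wL) {f : Qt (PG L) (X G.DL.toDatum) → ℂ}
    (hf : ∀ x, f (pr (PG L) x) = autK k.ker x (G.DL.σX x)) :
    ∫ q, f q ∂qMeas (PG L) (volume : Measure (X G.DL.toDatum)) wL =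
      ∫ x, (wL x).toReal • autK k.ker x (G.DL.σX x) := by
  have hm : Measurable f := by
    rw [measurable_iff_pr]
    simp_rw [hf]
    exact Measurable.tsum fun δ => (G.DL.continuous_ker_tw k δ).measurable
  rw [integral_qMeas hwL f hm.aestronglyMeasurable]
  simp_rw [hf]

/-- **GEO THEOREM**, on the quotients. -/
theorem exists_geo_identity_q (hR : ∀ (γ : G2 K) (δ : G2 L), Corr C γ δ → LocRam G γ δ)
    (hN : Norms G) (k0 : Pure G.DL.toDatum) :
    ∃ B : ℝ, ∀ u : Pl K, Split C u (G.up u) → B < qv u →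
      ∀ k : Pure G.DL.toDatum, (∀ i, k.a i = k0.a i) → (∀ w, G.down w ≠ u → k.f w = k0.f w) →
        OddTest k u → Good k →
        ∀ {wL : X G.DL.toDatum → ℝ≥0∞} {wK : X G.DK → ℝ≥0∞},
        IsWeight (PG L) wL → IsWeight (PG K) wK →
        ∀ {f : Qt (PG L) (X G.DL.toDatum) → ℂ} {f' : Qt (PG K) (X G.DK) → ℂ},
        (∀ x, f (pr (PG L) x) = autK k.ker x (G.DL.σX x)) →
        (∀ x, f' (pr (PG K) x) = autK (bPure k).ker x x) →
        ∫ q, f q ∂qMeas (PG L) (volume : Measure (X G.DL.toDatum)) wL =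
          ∫ q, f' q ∂qMeas (PG K) (volume : Measure (X G.DK)) wK := by
  obtain ⟨B, hB⟩ := exists_geo_identity hR hN k0
  refine ⟨B, fun u hu hBu k ha hf ho hk wL wK hwL hwK f f' h h' => ?_⟩
  rw [integral_autK_tw k hwL h, integral_autK (bPure k) hwK h']
  exact hB u hu hBu k ha hf ho hk hwL hwK

end GeoDat2

end Fermat.LT
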