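import Fermat.Agent.LT.Geo.Cons
import Fermat.Agent.LTG.Geo.Match
import Fermat.Agent.LT.Geo.Places

/-!
# LTG, geometric side: construction of the comparison datum `GeoDat2`

Clone of `LT/Geo/Cons`; `L` may have level `HT w (3 mb)` at totally ramified places with `q_v = 4`.
-/

set_option autoImplicit false
set_option linter.unusedSectionVars false

open NumberField IsDedekindDomain Matrix Module
open Fermat.Agent.LT.D Fermat.Agent.CFT

namespace Fermat.LT

section phi

variable {F : Type} [Field F] [NumberField F]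

/-- `|tr² / det| < 1` in terms of the norm, for elements of `stdH` -/
theorem av_td_lt_one_iff (v : Pl F) {g : G2 F} (hg : g ∈ stdH v) :
    av v (td g) < 1 ↔ av v g.1.trace < nm v g.1 := by
  have hp := nm_pos v g
  have hd : av v g.1.det = nm v g.1 ^ 2 := by
    have h1 := (mem_stdH v g).mp hg
    rw [dist_eq] at h1
    have h0 : 0 < av v g.1.det := (av v).pos (Fermat.Agent.LT.CTree.det_ne_zero g)
    rw [div_le_one h0] at h1
    exact le_antisymm (av_det_le v g.1) h1
  rw [td, map_div₀, map_pow, hd, div_lt_one (by positivity), sq_lt_sq₀ ((av v).nonneg _) hp.le]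

/-- invariance of the class function at the bad ramified places -/
theorem phiB_td_scalCong (v : Pl F) {N M : ℕ} (hN : 1 ≤ N) {g g' : G2 F}
    (hg : g ∈ scalCong v N) (hg' : g' ∈ HB v M) :
    phiB v (td (g * g')) = phiB v (td g') := by
  obtain ⟨c, hc⟩ := hg
  have e : td (g * g') = td (sc c * g * g') := by rw [mul_assoc, td_sc_mul]
  rw [e]
  set h := sc c * g with hh
  have hh1 : h ∈ stdH v := intGL_le_stdH v hc.1
  have hs : g' ∈ stdH v := hg'.1
  have hp := nm_pos v g'
  have h1 : nm v h.1 = 1 := by
    apply le_antisymm hc.1.1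
    have h2 := nm_mul_inv_ge v h
    calc 1 ≤ nm v h.1 * nm v (h⁻¹).1 := h2
      _ ≤ nm v h.1 * 1 := mul_le_mul_of_nonneg_left hc.1.2 (nm_nonneg v _)
      _ = nm v h.1 := mul_one _
  have h2 : nm v (h * g').1 = nm v g'.1 := by
    rw [Fermat.Agent.LT.CTree.nm_mul_of_mem v hs, h1, one_mul]
  have h3 : av v ((h * g').1.trace - g'.1.trace) < nm v g'.1 := by
    have e1 : (h * g').1.trace - g'.1.trace = ((h.1 - 1) * g'.1).trace := by
      rw [sub_mul, one_mul, Matrix.trace_sub, Units.val_mul]
    rw [e1]
    refine (av_trace_le v _).trans_lt ((nm_mul_le v _ _).trans_lt ?_)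
    have h4 : nm v (h.1 - 1) < 1 := hc.2.trans_lt
      (pow_lt_one₀ (inv_nonneg.mpr (qv_pos v).le) (inv_lt_one_of_one_lt₀ (one_lt_qv v))
        (by omega))
    calc nm v (h.1 - 1) * nm v g'.1 < 1 * nm v g'.1 := mul_lt_mul_of_pos_right h4 hp
      _ = _ := one_mul _
  have key : av v (td (h * g')) < 1 ↔ av v (td g') < 1 := by
    rw [av_td_lt_one_iff v (mul_mem hh1 hs), av_td_lt_one_iff v hs, h2]
    constructor
    · intro h5
      have e2 : g'.1.trace = (h * g').1.trace - ((h * g').1.trace - g'.1.trace) := by ring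
      rw [e2]
      exact (E.av_sub_le v _ _).trans_lt (max_lt h5 h3)
    · intro h5
      have e2 : (h * g').1.trace = ((h * g').1.trace - g'.1.trace) + g'.1.trace := by ring
      rw [e2]
      exact (av_add_le v _ _).trans_lt (max_lt h3 h5)
  unfold phiB
  simp only [key]

theorem scalCong_le_HT (v : Pl F) {N M : ℕ} (hN : 1 ≤ N) (hM : M ≤ N) :
    scalCong v N ≤ HT v M := by
  rintro g ⟨c, hc⟩
  have h1 : sc c * g ∈ HT v M := congGL_le_HT v M hN hM hc
  have h2 : sc c ∈ HT v M := scal_le_HT v M ((mem_scal_iff _).mpr ⟨c, rfl⟩)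
  have h3 : g = (sc c)⁻¹ * (sc c * g) := by group
  rw [h3]
  exact mul_mem (inv_mem h2) h1

end phi

section cons

variable {K L : Type} [Field K] [NumberField K] [Field L] [NumberField L] [Algebra K L]

/-- the flat level on `K` : `HT v mb` at the bad ramified places -/
noncomputable def flatLevelG (C : Cub K L) (mb : ℕ) (U : Level L) (up : Pl K → Pl L)
    (hup : ∀ v, Above v (up v)) : Level K := by
  classical
  exact
  { H := fun v => if Split C v (up v) then (U.H (up v)).comap Cub.Inc else
      if Ram C v (up v) ∧ U.n (up v) ≠ 0 then HT v mb else stdH v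
    scal_le := by
      intro v g hg
      split_ifs with h h'
      · obtain ⟨c, hc⟩ := (mem_scal_iff g).mp hg
        rw [Subgroup.mem_comap]
        apply U.scal_le
        rw [mem_scal_iff]
        refine ⟨Units.map (algebraMap K L : K →* L) c, ?_⟩
        rw [Inc_val, hc]
        ext i j
        fin_cases i <;> fin_cases j <;> simp
      · exact scal_le_HT v mb hg
      · exact scal_le_stdH v hg
    le_std := by
      intro v g hg
      split_ifs at hg with h h'
      · have h1 := U.le_std _ (Subgroup.mem_comap.mp hg)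
        rw [mem_stdH] at h1 ⊢
        rw [← map_inv, Inc_val, Inc_val, nm_Inc_of_av h.av_eq, nm_Inc_of_av h.av_eq] at h1
        exact h1
      · exact HT_le_stdH v mb hg
      · exact hg
    n := fun v => if Split C v (up v) then U.n (up v) else
      if Ram C v (up v) ∧ U.n (up v) ≠ 0 then max mb 1 else 0
    cong_le := by
      intro v g hg
      split_ifs at hg ⊢ with h h'
      · rw [Subgroup.mem_comap]
        apply U.cong_le
        refine ⟨⟨?_, ?_⟩, ?_⟩
        · rw [Inc_val, nm_Inc_of_av h.av_eq]; exact hg.1.1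
        · rw [← map_inv, Inc_val, nm_Inc_of_av h.av_eq]; exact hg.1.2
        · have e : (Cub.Inc (L := L) g).1 - 1 = (g.1 - 1).map (algebraMap K L) := by
            rw [Inc_val]
            ext i j
            fin_cases i <;> fin_cases j <;> simp
          rw [e, nm_Inc_of_av h.av_eq, h.q_eq]
          exact hg.2
      · exact congGL_le_HT v mb (le_max_right _ _) (le_max_left _ _) hg
      · rw [congGL_zero] at hg
        exact intGL_le_stdH v hg
    n_fin := by
      refine (U.n_fin.image (SUH.below K)).subset ?_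
      intro v hv
      have h1 : U.n (up v) ≠ 0 := by
        intro h0
        apply hv
        simp [h0]
      exact ⟨up v, h1, (above_iff v _).mp (hup v)⟩ }

/-- **Construction of the comparison datum.** -/
noncomputable def GeoDat2.mk' (C : Cub K L) (hK : finrank ℚ K = 2) (φ : L →+* ℂ)
    (hφ : ¬ ComplexEmbedding.IsReal (φ.comp (algebraMap K L))) (U : Level L)
    (hU : ∀ w g, C.S g ∈ U.H (pl C w) ↔ g ∈ U.H w) (mb : ℕ) (hmb : 1 ≤ mb)
    (hstd : ∀ w, pl C w = w → U.n w = 0 ∨
      (U.H w = HT w (3 * mb) ∧ ∀ v, Above v w → Ram C v w ∧ qv v = 4)) (nr : Pl K → ℕ)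
    (hnr : ∀ v w, Ram C v w → (qv v)⁻¹ ^ nr v < av v 9) : GeoDat2 C := by
  classical
  exact
  { DL := TwDatum.ofEmb C hK φ hφ U hU
    AK := archQuad hK (φ.comp (algebraMap K L)) hφ
    uK := inferInstanceAs (Unique Unit)
    U := deepLevel C (flatLevelG C mb U (fun v => (exists_above (L := L) v).choose)
      (fun v => (exists_above (L := L) v).choose_spec)) (fun v => (exists_above (L := L) v).choose)
      (fun v => max (max (nr v) 1) mb)
    U0 := flatLevelG C mb U (fun v => (exists_above (L := L) v).choose)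
      (fun v => (exists_above (L := L) v).choose_spec)
    ι := (0 : Fin 3)
    emb_ι := fun x => rfl
    cover := by
      have h : ∀ i : Fin 3, i = 0 ∨ i = finRotate 3 0 ∨ i = finRotate 3 (finRotate 3 0) := by decide
      exact h
    up := fun v => (exists_above (L := L) v).choose
    down := SUH.below K
    above := fun w => above_below w
    up_down := fun w => above_cases C (exists_above (L := L) (SUH.below K w)).choose_spec
      (above_below w)
    down_up := fun v => (above_iff v _).mp (exists_above (L := L) v).choose_spec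
    down_pl := fun w => below_pl C w
    typ := fun v => trichotomy C (exists_above (L := L) v).choose_spec
    H_split := fun v h g => by
      change g ∈ (if Split C v _ then _ else _) ↔ _
      rw [if_pos h]
      exact Iff.rfl
    H_inert := fun v h => by
      have h0 : U.n (exists_above (L := L) v).choose = 0 :=
        (hstd _ h.fix).resolve_right fun h1 =>
          h.not_ram (h1.2 v (exists_above (L := L) v).choose_spec).1
      refine ⟨U.H_eq h0, ?_⟩
      change (if Split C v _ then _ else if Ram C v _ ∧ U.n _ ≠ 0 then _ else _) = _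
      rw [if_neg (fun h' => h'.not_inert h), if_neg (fun h' => h'.2 h0)]
    H_ram := fun v h h0 => by
      refine ⟨U.H_eq h0, ?_⟩
      change (if Split C v _ then _ else if Ram C v _ ∧ U.n _ ≠ 0 then _ else _) = _
      rw [if_neg (fun h' => h'.not_ram h), if_neg (fun h' => h'.2 h0)]
    mb := mb
    one_le_mb := hmb
    H_bad := fun v h h0 => by
      have h1 := (hstd _ h.fix).resolve_left h0
      refine ⟨h1.1, ?_, (h1.2 v (exists_above (L := L) v).choose_spec).2⟩
      change (if Split C v _ then _ else if Ram C v _ ∧ U.n _ ≠ 0 then _ else _) = _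
      rw [if_neg (fun h' => h'.not_ram h), if_pos ⟨h, h0⟩]
    U_le := fun v => by
      change (if Ram C v _ then scalCong v _ else _) ≤ _
      split_ifs with h
      · change _ ≤ (if Split C v _ then _ else if Ram C v _ ∧ U.n _ ≠ 0 then _ else _)
        rw [if_neg (fun h' => h'.not_ram h)]
        split_ifs
        · exact scalCong_le_HT v ((le_max_right _ _).trans (le_max_left _ _)) (le_max_right _ _)
        · exact scalCong_le_stdH v _
      · exact le_rfl
    U_eq := fun v h => by
      change (if Ram C v _ then scalCong v _ else _) = _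
      rw [if_neg h]
    nr := nr
    nr_big := fun v h => hnr v _ h
    ram_fin := (ram_finite C).subset fun v h => ⟨_, h⟩
    U_ram := fun v h h0 g hg g' hg' => by
      have hg1 : g ∈ (if Ram C v (exists_above (L := L) v).choose then
        scalCong v (max (max (nr v) 1) mb) else _) := hg
      rw [if_pos h] at hg1
      have h1 := phiR_td_scalCong C v (nr v) (max (max (nr v) 1) mb)
        ((le_max_left _ _).trans (le_max_left _ _)) ((le_max_right _ _).trans (le_max_left _ _))
        hg1 hg'
      exact ⟨h1, by rw [td_mul_comm, h1]⟩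
    U_bad := fun v h h0 g hg g' hg' => by
      have hg1 : g ∈ (if Ram C v (exists_above (L := L) v).choose then
        scalCong v (max (max (nr v) 1) mb) else _) := hg
      rw [if_pos h] at hg1
      have h1 := phiB_td_scalCong v ((le_max_right _ _).trans (le_max_left _ _)) hg1 hg'
      exact ⟨h1, by rw [td_mul_comm, h1]⟩ }

section mk_api

variable (C : Cub K L) (hK : finrank ℚ K = 2) (φ : L →+* ℂ)
    (hφ : ¬ ComplexEmbedding.IsReal (φ.comp (algebraMap K L))) (U : Level L)
    (hU : ∀ w g, C.S g ∈ U.H (pl C w) ↔ g ∈ U.H w) (mb : ℕ) (hmb : 1 ≤ mb)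
    (hstd : ∀ w, pl C w = w → U.n w = 0 ∨
      (U.H w = HT w (3 * mb) ∧ ∀ v, Above v w → Ram C v w ∧ qv v = 4)) (nr : Pl K → ℕ)
    (hnr : ∀ v w, Ram C v w → (qv v)⁻¹ ^ nr v < av v 9)

theorem GeoDat2.mk'_nr : (GeoDat2.mk' C hK φ hφ U hU mb hmb hstd nr hnr).nr = nr := rfl

theorem GeoDat2.mk'_mb : (GeoDat2.mk' C hK φ hφ U hU mb hmb hstd nr hnr).mb = mb := rfl

theorem GeoDat2.mk'_DL : (GeoDat2.mk' C hK φ hφ U hU mb hmb hstd nr hnr).DL =
    TwDatum.ofEmb C hK φ hφ U hU := rfl

theorem GeoDat2.mk'_down :
    (GeoDat2.mk' C hK φ hφ U hU mb hmb hstd nr hnr).down = SUH.below K := rfl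

theorem GeoDat2.mk'_AK : (GeoDat2.mk' C hK φ hφ U hU mb hmb hstd nr hnr).AK =
    archQuad hK (φ.comp (algebraMap K L)) hφ := rfl

end mk_api

/-- the comparison datum with the standard precision -/
noncomputable def GeoDat2.mk3 (C : Cub K L) (hK : finrank ℚ K = 2) (φ : L →+* ℂ)
    (hφ : ¬ ComplexEmbedding.IsReal (φ.comp (algebraMap K L))) (U : Level L)
    (hU : ∀ w g, C.S g ∈ U.H (pl C w) ↔ g ∈ U.H w) (mb : ℕ) (hmb : 1 ≤ mb)
    (hstd : ∀ w, pl C w = w → U.n w = 0 ∨
      (U.H w = HT w (3 * mb) ∧ ∀ v, Above v w → Ram C v w ∧ qv v = 4)) : GeoDat2 C :=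
  GeoDat2.mk' C hK φ hφ U hU mb hmb hstd (fun v => (exists_nr v).choose)
    fun v _ _ => (exists_nr v).choose_spec

end cons

end Fermat.LT
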