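import Fermat.Agent.LT.Geo.Norms
import Fermat.Agent.LTG.Geo.Cons
import Fermat.Agent.LT.Geo.NormsLoc
import Fermat.Agent.LT.Geo.Places
import Fermat.Agent.LT.E.Av
import Fermat.Agent.LTG.RB.Wrap

/-!
# LT, geometric side: global classes in the support of the matching function are norms
-/

set_option autoImplicit false
set_option linter.unusedSectionVars false

open NumberField IsDedekindDomain Matrix Module
open Fermat.Agent.LT.D Fermat.Agent.CFT

namespace Fermat.LT

variable {K L : Type} [Field K] [NumberField K] [Field L] [NumberField L] [Algebra K L]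
  {C : Cub K L}

variable (G : GeoDat2 C)

/-- the local conditions for classes in the support of the matching function -/
theorem locCond_of_supp_G (v : Pl K) (γ : G2 K)
    (hin : Inert C v (G.up v) → ∃ g : G2 K, g⁻¹ * γ * g ∈ stdH v)
    (hra : Ram C v (G.up v) → (G.DL.n (G.up v) = 0 →
      (∃ g : G2 K, nm v (g⁻¹ * γ * g).1 * nm v ((g⁻¹ * γ * g)⁻¹).1 = qv v)) ∧
      G.phi v (td γ) ≠ 0) : N2.LocCond' C v (Cub.sInv γ) := by
  rcases G.typ v with hs | hi | hr
  · -- split
    refine Or.inl (Or.inl ⟨G.up v, pl C (G.up v), hs.ne.symm, (above_iff _ _).mp hs.above, ?_⟩)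
    rw [below_pl]
    exact (above_iff _ _).mp hs.above
  · -- inert
    refine Or.inl (Or.inr (Or.inl ⟨?_, ?_⟩))
    · intro w hw
      have hw' : Above v w := (above_iff _ _).mpr hw
      have h1 : w = G.up v := by
        rcases above_cases (C := C) hi.above hw' with h | h | h
        · exact h
        · rw [h, hi.fix]
        · rw [h, hi.fix, hi.fix]
      subst h1
      obtain ⟨x, hx0, hx⟩ := E.exists_av_lt_one v
      have hx1 : 0 < av v x := (av v).pos hx0
      have h2 := av_above hi.above x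
      rw [hi.av_eq] at h2
      have h3 := pow_right_injective₀ hx1 hx.ne h2
      have h4 := qv_above hi.above
      rw [hi.q_eq] at h4
      have h5 := pow_right_injective₀ (qv_pos v) (one_lt_qv v).ne' h4
      have h6 : (G.up v).asIdeal.ramificationIdx (𝓞 K) = 1 := by
        rw [← h5] at h3
        omega
      have hLO : (G.up v).asIdeal.LiesOver v.asIdeal := by
        have h7 : (G.up v).asIdeal.LiesOver (SUH.below K (G.up v)).asIdeal := inferInstance
        rwa [hw] at h7
      rw [Ideal.ramificationIdx'_eq_ramificationIdx _ _ v.ne_bot]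
      exact h6
    · obtain ⟨g, hg⟩ := hin hi
      rw [← td_eq_sInv, ← td_conj_mul g, ← E.av_le_one_iff]
      exact (av_td_le v _).trans ((mem_stdH _ _).mp hg)
  · -- ramified
    obtain ⟨hg', hphi⟩ := hra hr
    rw [← td_eq_sInv]
    by_cases hn : G.DL.n (G.up v) = 0
    swap
    · -- bad
      rw [GeoDat2.phi, if_neg hn, phiB] at hphi
      have h1 : av v (td γ) < 1 := by
        by_contra hc
        exact hphi (if_neg hc)
      refine Or.inl (Or.inr (Or.inr ⟨-1, by norm_num, ?_⟩))
      have h2 : (((-1 : K)) ^ 3) ^ 2 - (td γ - 2) * (-1) ^ 3 + 1 = td γ := by ring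
      rw [h2, ← map_pow, ← E.av_lt_av_iff]
      have h3 : av v ((9 * (-1) ^ 3) ^ 2 : K) = 1 := by
        have h4 := (G.H_bad v hr hn).2.2
        have h5 : av v (2 : K) < 1 := av_two_lt h4
        have h6 := av_three_eq h5
        have h7 : ((9 * (-1) ^ 3) ^ 2 : K) = 3 ^ 4 := by norm_num
        rw [h7, map_pow, h6, one_pow]
      rw [h3]
      exact h1
    obtain ⟨g, hg⟩ := hg' hn
    rw [GeoDat2.phi, if_pos hn] at hphi
    by_cases h1 : av v (td γ) ≤ 1
    · by_cases h0 : td γ = 0
      · refine Or.inl (Or.inr (Or.inr ⟨-1, by norm_num, ?_⟩))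
        rw [h0]
        have h2 : (((-1 : K)) ^ 3) ^ 2 - (0 - 2) * (-1) ^ 3 + 1 = 0 := by norm_num
        rw [h2, map_zero]
        refine zero_lt_iff.mpr (pow_ne_zero _ ?_)
        rw [Valuation.ne_zero_iff]
        norm_num
      · refine Or.inr (Or.inr ⟨(E.av_le_one_iff v _).mp h1, val_sq_ne_of_av ?_⟩)
        rw [← td_conj_mul g] at h0 ⊢
        exact av_sq_ne_td v hg h0
    · rw [phiR, if_neg h1] at hphi
      have h2 : ∃ (b : L) (m : K), b ≠ 0 ∧ algebraMap K L m = C.nL b ∧
          av v (m + 2 + m⁻¹ - td γ) ≤ av v (td γ) * (qv v)⁻¹ ^ G.nr v := by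
        by_contra h
        rw [if_neg h] at hphi
        exact hphi rfl
      obtain ⟨b, m, hb, hm, hle⟩ := h2
      push Not at h1
      refine Or.inr (Or.inl ⟨?_, b, m, hb, hm, ?_⟩)
      · by_contra h
        push Not at h
        exact absurd h1 (not_lt.mpr ((E.av_le_one_iff v _).mpr h))
      · rw [← E.av_lt_av_iff]
        refine hle.trans_lt ?_
        rw [map_mul, mul_comm]
        exact mul_lt_mul_of_pos_right (G.nr_big v hr) (zero_lt_one.trans h1)

/-- **Existence of corresponding classes.** -/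
theorem exists_corr_G (hζ : ∃ ζ : K, IsPrimitiveRoot ζ 3) (γ : G2 K) (hγ : Disc γ.1)
    (hin : ∀ v, Inert C v (G.up v) → ∃ g : G2 K, g⁻¹ * γ * g ∈ stdH v)
    (hra : ∀ v, Ram C v (G.up v) → (G.DL.n (G.up v) = 0 →
      (∃ g : G2 K, nm v (g⁻¹ * γ * g).1 * nm v ((g⁻¹ * γ * g)⁻¹).1 = qv v)) ∧
      G.phi v (td γ) ≠ 0) :
    ∃ δ : G2 L, GeoDat2.Corr C γ δ := by
  obtain ⟨ζ, hζ⟩ := hζ
  have := isGalois_of_cub C
  have hloc : ∀ v : HeightOneSpectrum (𝓞 K), N2.LocCond' C v (Cub.sInv γ) := fun v =>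
    locCond_of_supp_G G v γ (hin v) (hra v)
  have hz : ∃ z ∈ Cub.Z (L := L) γ,
      C.N z = Cub.Inc (γ * γ) * (Cub.sc (Matrix.GeneralLinearGroup.det (Cub.Inc γ)))⁻¹ := by
    by_cases hE : Ell γ.1
    · exact C.exists_z_of_ell' hζ (finrank_of_cub C) hE hloc
    · exact C.exists_z_of_split' hζ (finrank_of_cub C) hγ hE hloc
  obtain ⟨δ, hδ, c, hc⟩ := (C.exists_iff hγ.not_isSc).mpr hz
  exact ⟨δ, hγ, hδ, c, hc⟩

end Fermat.LT
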