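import Fermat.Agent.LT.Geo.RamFin
import Fermat.Agent.LTG.Geo.LocRB
import Fermat.Agent.LTG.Geo.MatchAll
import Fermat.Agent.LTG.RB.Val
import Fermat.Agent.LTG.RB.Desc
import Fermat.Agent.LTG.RB.Wrap

/-!
# LTG, geometric side: local matching at the totally ramified places (E3), conclusion

Good ramified places as in `LT/Geo/RamFin`, bad ramified places by `locMatch_bad`.
-/

set_option autoImplicit false
set_option linter.unusedSectionVars false
set_option linter.unusedVariables false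

open NumberField IsDedekindDomain Matrix
open Fermat.Agent.LT.D

namespace Fermat.LT.Tr

section glue

open GeoDat2

variable {K L : Type} [Field K] [NumberField K] [Field L] [NumberField L] [Algebra K L]
variable {C : Cub K L} {G : GeoDat2 C}

/-- coordinates above a ramified place -/
noncomputable def ramL_G {v : Pl K} (hv : Ram C v (G.up v)) (hn : G.DL.n (G.up v) = 0) :
    Yl G.DL.toLevel (G.up v) ≃ G2 L ⧸ stdH (G.up v) :=
  Subgroup.quotientEquivOfEq (G.H_ram v hv hn).1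

/-- coordinates at a ramified place -/
noncomputable def ramK_G {v : Pl K} (hv : Ram C v (G.up v)) (hn : G.DL.n (G.up v) = 0) :
    Yl G.U0 v ≃ G2 K ⧸ stdH v :=
  Subgroup.quotientEquivOfEq (G.H_ram v hv hn).2

theorem ramL_smul_G {v : Pl K} (hv : Ram C v (G.up v)) (hn : G.DL.n (G.up v) = 0) (g : G2 L)
    (y : Yl G.DL.toLevel (G.up v)) : ramL_G hv hn (g • y) = g • ramL_G hv hn y := by
  obtain ⟨a, rfl⟩ := QuotientGroup.mk_surjective y
  rfl

theorem ramK_smul_G {v : Pl K} (hv : Ram C v (G.up v)) (hn : G.DL.n (G.up v) = 0) (g : G2 K)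
    (y : Yl G.U0 v) : ramK_G hv hn (g • y) = g • ramK_G hv hn y := by
  obtain ⟨a, rfl⟩ := QuotientGroup.mk_surjective y
  rfl

theorem ramL_σl_G {v : Pl K} (hv : Ram C v (G.up v)) (hn : G.DL.n (G.up v) = 0) (δ : G2 L)
    (y : Yl G.DL.toLevel (G.up v)) :
    ramL_G hv hn (δ • G.DL.σl hv.fix y) = TL hv δ (ramL_G hv hn y) := by
  obtain ⟨a, rfl⟩ := QuotientGroup.mk_surjective y
  rfl

open Classical in
theorem Fv_ram_G {v : Pl K} (hv : Ram C v (G.up v)) (hn : G.DL.n (G.up v) = 0)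
    {k : Pure G.DL.toDatum} (hk : Good k)
    (δ : G2 L) (y : G.AL v) : Fv k v δ y =
      if OmL hv δ (ramL_G hv hn (y (G.ix v))) then 1 else 0 := by
  rw [Fv_fix hv.fix, hk.ram v hv hn, kw_T1 (G.H_ram v hv hn).1]
  unfold OmL
  rw [← ramL_σl_G]
  rfl

open Classical in
theorem Gv_ram_G {v : Pl K} (hv : Ram C v (G.up v)) (hn : G.DL.n (G.up v) = 0)
    (k : Pure G.DL.toDatum) (γ : G2 K) (z : Yl G.U0 v) : Gv k v γ z =
      phiR C v (G.nr v) (td γ) * (if OmK v γ (ramK_G hv hn z) then 1 else 0) := by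
  unfold Gv
  rw [if_neg (not_split_of_ram hv), if_pos hv, Rr_good hn, phi_good hn,
    kw_T1 (G.H_ram v hv hn).2]
  unfold OmK
  rw [TK_apply, ← ramK_smul_G]
  rfl

/-- matching at the good ramified places -/
theorem locMatch_good_G (G : GeoDat2 C) {γ : G2 K} {δ : G2 L} (hc : Corr C γ δ) {v : Pl K}
    (hv : Ram C v (G.up v)) (hn : G.DL.n (G.up v) = 0) :
    ∃ P : G.AL v → Yl G.U0 v, ∀ k : Pure G.DL.toDatum, Good k → LocMatch k v γ δ P := by
  classical
  obtain ⟨P, hP1, hP2, hP3⟩ := ram_core hv hc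
  refine ⟨fun y => (ramK_G hv hn).symm (P (ramL_G hv hn (y (G.ix v)))), fun k hk => ?_⟩
  have hne : ∀ y, Fv k v δ y ≠ 0 ↔ OmL hv δ (ramL_G hv hn (y (G.ix v))) := by
    intro y
    rw [Fv_ram_G hv hn hk]
    split_ifs with h
    · exact ⟨fun _ => h, fun _ => one_ne_zero⟩
    · exact ⟨fun h' => absurd rfl h', fun h' => absurd h' h⟩
  -- the bijection
  have hbij : ∀ z, Set.BijOn (fun y : G.AL v => ramL_G hv hn (y (G.ix v)))
      {y | (ramK_G hv hn).symm (P (ramL_G hv hn (y (G.ix v)))) = z ∧ Fv k v δ y ≠ 0}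
      {y | P y = ramK_G hv hn z ∧ OmL hv δ y} := by
    intro z
    refine ⟨?_, ?_, ?_⟩
    · rintro y ⟨h1, h2⟩
      refine ⟨?_, (hne y).mp h2⟩
      rw [← h1, Equiv.apply_symm_apply]
    · intro y _ y' _ h
      exact AL_ext hv.fix ((ramL_G hv hn).injective h)
    · rintro y ⟨h1, h2⟩
      have hs := down_subsingleton (G := G) hv.fix
      have hU : ∃ y' : G.AL v, y' (G.ix v) = (ramL_G hv hn).symm y := by
        refine ⟨fun w => by
          have : w = G.ix v := hs.elim _ _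
          exact this ▸ (ramL_G hv hn).symm y, rfl⟩
      obtain ⟨y', hy'⟩ := hU
      have e : ramL_G hv hn (y' (G.ix v)) = y := by rw [hy', Equiv.apply_symm_apply]
      refine ⟨y', ⟨?_, ?_⟩, e⟩
      · rw [e, h1, Equiv.symm_apply_apply]
      · rw [hne, e]; exact h2
  refine ⟨?_, ?_, ?_⟩
  · intro z
    exact (hbij z).finite_iff_finite.mpr (hP1 _)
  · intro z
    have h1 : ∑ᶠ y ∈ {y | (ramK_G hv hn).symm (P (ramL_G hv hn (y (G.ix v)))) = z ∧
        Fv k v δ y ≠ 0}, Fv k v δ y = ∑ᶠ y ∈ {y | P y = ramK_G hv hn z ∧ OmL hv δ y}, (1 : ℂ) := by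
      apply finsum_mem_eq_of_bijOn _ (hbij z)
      rintro y ⟨-, h2⟩
      rw [Fv_ram_G hv hn hk, if_pos ((hne y).mp h2)]
    rw [h1, Gv_ram_G hv hn k, ← hP2, finsum_mem_eq_finite_toFinset_sum _ (hP1 _),
      Finset.sum_const, nsmul_one, Set.ncard_eq_toFinset_card _ (hP1 _)]
  · intro t ht y hy
    have h1 := hP3 t ht _ ((hne y).mp hy)
    change (ramK_G hv hn).symm (P (ramL_G hv hn (Cub.Inc (L := L) t • y (G.ix v)))) = _
    rw [ramL_smul_G, h1]
    apply (ramK_G hv hn).injective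
    rw [ramK_smul_G, Equiv.apply_symm_apply, Equiv.apply_symm_apply]

/-- matching at the bad ramified places -/
theorem locMatch_bad_G (G : GeoDat2 C) (hζ : ∃ ζ : K, IsPrimitiveRoot ζ 3) {γ : G2 K} {δ : G2 L}
    (hc : Corr C γ δ) {v : Pl K} (hv : Ram C v (G.up v)) (hn : G.DL.n (G.up v) ≠ 0) :
    ∃ P : G.AL v → Yl G.U0 v, ∀ k : Pure G.DL.toDatum, Good k → LocMatch k v γ δ P := by
  have h4 : qv v = 4 := (G.H_bad v hv hn).2.2
  obtain ⟨d, hd⟩ := exists_RBd hζ hv h4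
  obtain ⟨hdisc, hδ, c, hN⟩ := hc
  have hc' : Corr C γ δ := ⟨hdisc, hδ, c, hN⟩
  obtain ⟨t, hM⟩ := RBv.exists_RBMatch_of hv h4 G.one_le_mb hd hdisc.not_isSc hδ hN
    (fun x hx => hv.desc_RB h4 G.one_le_mb hd x hx)
  exact locMatch_bad hc' hv hn hd
    (fun j j' z z' b b' hb hb' h h0 h0' => RB.RB_inj hv G.one_le_mb hd hb hb' h h0 h0') hM

/-- **(E3)**: matching at the ramified places. -/
theorem _root_.Fermat.LT.GeoDat2.locRam_G (G : GeoDat2 C) (hζ : ∃ ζ : K, IsPrimitiveRoot ζ 3)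
    {γ : G2 K} {δ : G2 L} (hc : Corr C γ δ) : LocRam G γ δ := by
  classical
  have key : ∀ v, ∃ P : G.AL v → Yl G.U0 v, Ram C v (G.up v) →
      ∀ k : Pure G.DL.toDatum, Good k → LocMatch k v γ δ P := by
    intro v
    by_cases hv : Ram C v (G.up v)
    swap
    · exact ⟨fun _ => ((1 : G2 K) : Yl G.U0 v), fun h => absurd h hv⟩
    by_cases hn : G.DL.n (G.up v) = 0
    · obtain ⟨P, hP⟩ := locMatch_good_G G hc hv hn
      exact ⟨P, fun _ => hP⟩
    · obtain ⟨P, hP⟩ := locMatch_bad_G G hζ hc hv hn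
      exact ⟨P, fun _ => hP⟩
  choose P hP using key
  exact ⟨P, fun v hv k hk => hP v hv k hk⟩

end glue

end Fermat.LT.Tr
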