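import Fermat.Agent.LTG.Geo.LocRB
import Fermat.Agent.LTG.RB.Main

/-!
# LTG: `LocMatch` at the bad ramified places
(helper84)
-/

set_option autoImplicit false
set_option linter.unusedSectionVars false

open NumberField IsDedekindDomain Matrix
open Fermat.Agent.LT.D

namespace Fermat.LT

variable {K L : Type} [Field K] [NumberField K] [Field L] [NumberField L] [Algebra K L]

namespace GeoDat2

variable {C : Cub K L} {G : GeoDat2 C}

/-- matching at the bad ramified places -/
theorem exists_locMatch_bad (hζ : ∃ ζ : K, IsPrimitiveRoot ζ 3) {γ : G2 K} {δ : G2 L}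
    (hc : Corr C γ δ) {v : Pl K} (hv : Ram C v (G.up v)) (hn : G.DL.n (G.up v) ≠ 0) :
    ∃ P : G.AL v → Yl G.U0 v, ∀ k : Pure G.DL.toDatum, Good k → LocMatch k v γ δ P := by
  have h4 : qv v = 4 := (G.H_bad v hv hn).2.2
  obtain ⟨d, hd⟩ := exists_RBd hζ hv h4
  have hi : RBInj v (G.up v) G.mb d := fun j j' z z' b b' hb hb' h h0 h0' =>
    RB.RB_inj hv G.one_le_mb hd hb hb' h h0 h0'
  obtain ⟨hD, hδ, c, hN⟩ := id hc
  obtain ⟨t, hM⟩ := exists_RBMatch hv h4 G.one_le_mb hd hD hδ hN
  exact locMatch_bad hc hv hn hd hi hM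

end GeoDat2

end Fermat.LT
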